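import Mathlib
import Fermat.Agent.H67.KLConn

/-!
# P-ES / KEY LEMMA, route B : the abstract setting (helper22)

Mathlib-only definitions and `Prop`-valued statements for the blocks KL-NORM, KL-KUM, KL-GB,
KL-BR and for the abstract assembly.  See findings "P-ES ARCHITECTURE v1 (helper22)" (#298).

Setting: `A` a discrete valuation ring with uniformiser `ϖ` (in the application `A₀ = A ∩ K₀`),
`E` a field containing `A` (in the application a function field `K₀(j(q^d) : d ∣ N)` or a Kummer
extension of it), `x : E` a coordinate, transcendental over `A`, with `E` finite over `K₀(x)`.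

* `chartRing A E x = A[x]`, `chartClosure A E x = B(x)` (integral closure of `A[x]` in `E`),
  `chartField A E x = K₀(x)`, `gaussClosure A E ϖ x = C(x)` (elements `y` with `h y ∈ B(x)` for
  some `h ∈ A[x] ∖ ϖ A[x]`; this is the integral closure of the Gauss valuation ring of `K₀(x)`).
* `GoodBasis` : a `K₀(x)`-basis of `E` inside `B(x)` whose discriminant is not divisible by `ϖ`.
* `IsFinitePlace`, `InDisc`, `UnramifiedNear`, `TameNear` : characteristic-zero branch data in
  valuation-subring form.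

VERSION 2 (2026-09-27): `InDisc` is now "centre of `v` contained in `(ϖ, g)`", and the tame
alternative of `BranchHypAt` only asks `g ≡ X - c mod ϖ`.  All statements keep their shape.
-/

set_option autoImplicit false

noncomputable section

namespace Fermat.Agent.H22.KL

open Polynomial
open Fermat.Agent.H67.KLConn (PiDvd)

section Defs

variable (A : Type) [CommRing A] (E : Type) [Field E] [Algebra A E]

/-- `A[x] ⊆ E`. -/
def chartRing (x : E) : Subalgebra A E := Algebra.adjoin A {x}

/-- `B(x)`: the integral closure of `A[x]` in `E`. -/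
def chartClosure (x : E) : Subalgebra A E :=
  (integralClosure (chartRing A E x) E).restrictScalars A

/-- `K₀(x) ⊆ E`: the subfield of `E` generated by `A` and `x`. -/
def chartField (x : E) : Subfield E := Subfield.closure (chartRing A E x : Set E)

/-- `z ∈ ϖ S` for a set `S ⊆ E`. -/
def PiDvdSet (ϖ : A) (S : Set E) (z : E) : Prop := ∃ c ∈ S, z = algebraMap A E ϖ * c

/-- The Gauss closure `C(x)`: all `y` with `h * y ∈ B(x)` for some `h ∈ A[x]`, `h ∉ ϖ A[x]`. -/
def gaussClosure (ϖ : A) (x : E) : Set E :=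
  {y | ∃ h ∈ chartRing A E x, ¬ PiDvd ϖ (chartRing A E x) 1 h ∧ h * y ∈ chartClosure A E x}

/-- **GOODBASIS**: a basis of `E` over `K₀(x)` consisting of elements integral over `A[x]`
whose discriminant is not divisible by `ϖ` in `A[x]`. -/
def GoodBasis (ϖ : A) (x : E) : Prop :=
  ∃ (n : ℕ) (b : Module.Basis (Fin n) (chartField A E x) E),
    (∀ i, b i ∈ chartClosure A E x) ∧
    ¬ PiDvd ϖ (chartRing A E x) 1
      ((Algebra.discr (chartField A E x) (fun i => b i) : chartField A E x) : E)

/-- A place of `E` trivial on `A ∖ {0}` (a discrete valuation ring of `E` containing `K₀`). -/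
def IsPlace (v : ValuationSubring E) : Prop :=
  v ≠ ⊤ ∧ IsPrincipalIdealRing v ∧ ∀ a : A, a ≠ 0 →
    algebraMap A E a ∈ v ∧ (algebraMap A E a)⁻¹ ∈ v

/-- A place of `E` in the chart `x` (i.e. `x` is regular at it). -/
def IsFinitePlace (x : E) (v : ValuationSubring E) : Prop :=
  IsPlace A E v ∧ x ∈ v

/-- `t` is a uniformiser of `v`. -/
def IsUniformiser (v : ValuationSubring E) (t : E) : Prop :=
  t ≠ 0 ∧ t ∈ v.nonunits ∧ ∀ y ∈ v.nonunits, y / t ∈ v

/-- `v` is unramified over `K₀(x)`: some element of `K₀(x)` is a uniformiser of `v`. -/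
def IsUnramifiedPlace (x : E) (v : ValuationSubring E) : Prop :=
  ∃ t ∈ chartField A E x, IsUniformiser E v t

/-- `r ∣ ord_v u` (for `u ≠ 0`): `u` times an `r`-th power is a unit at `v`. -/
def OrdDvd (v : ValuationSubring E) (r : ℕ) (u : E) : Prop :=
  ∃ t : E, t ≠ 0 ∧ u * t ^ r ∈ v ∧ (u * t ^ r)⁻¹ ∈ v

/-- The place `v` lies in the residue disc of the maximal ideal `(ϖ, g(x))` of `A[x]`:
the centre `{h | h(x) ∈ 𝔪_v}` of `v` on `Spec A[x]` is contained in `(ϖ, g)`.
(CORRECTED 2026-09-27 after the counterexamples of helper48/58/59/96: over a non-henselian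
`A` the earlier "monic `h ≡ g ^ k`" form missed the places whose centre straddles several
residue discs; purity needs unramifiedness at every height-one prime contained in `(ϖ, g)`.) -/
def InDisc (ϖ : A) (x : E) (g : A[X]) (v : ValuationSubring E) : Prop :=
  ∀ h : A[X], aeval x h ∈ v.nonunits → ∃ p q : A[X], h = C ϖ * p + g * q

/-- Every characteristic-zero place in the residue disc of `(ϖ, g(x))` is unramified over
`K₀(x)`. -/
def UnramifiedNear (ϖ : A) (x : E) (g : A[X]) : Prop :=
  ∀ v : ValuationSubring E, IsFinitePlace A E x v → InDisc A E ϖ x g v →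
    IsUnramifiedPlace A E x v

/-- In the residue disc of `(ϖ, x - c)` the only branch value is `c`, and the ramification
indices over `x = c` divide `e`. -/
def TameNear (ϖ : A) (x : E) (c : A) (e : ℕ) : Prop :=
  ∀ v : ValuationSubring E, IsFinitePlace A E x v → InDisc A E ϖ x (X - C c) v →
    (x - algebraMap A E c ∉ v.nonunits → IsUnramifiedPlace A E x v) ∧
    (x - algebraMap A E c ∈ v.nonunits →
      ∃ t : E, IsUniformiser E v t ∧ ∃ n : ℕ, n ∣ e ∧
        (x - algebraMap A E c) / t ^ n ∈ v ∧ t ^ n / (x - algebraMap A E c) ∈ v)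

/-- `s ∉ (ϖ, g)` in `A[X]`. -/
def OutsideMax (ϖ : A) (g s : A[X]) : Prop := ¬ ∃ p q : A[X], s = C ϖ * p + g * q

/-- The branch hypothesis at the maximal ideal `(ϖ, g(x))`: either all places in its residue
disc are unramified, or `g ≡ X - c mod ϖ` where `c` is a tame branch point of exponent `e`
(prime to the residue characteristic, `μ_e ⊆ A`), and for every prime `d ∣ e` some place `v` of
`E` has `d ∤ ord_v (x - c)` (in the application: the cusp `∞`, where `x - c` has order `± 1`;
this makes `X ^ e - (x - c)` irreducible over `E` and is stable under unramified extensions).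
(CORRECTED 2026-09-27, helper96 (F2): `g` is only required to be congruent to `X - c`, so that
the hypothesis depends only on the ideal `(ϖ, g)` and `∀ g, BranchHypAt g` is satisfiable.) -/
def BranchHypAt (ϖ : A) (x : E) (g : A[X]) : Prop :=
  UnramifiedNear A E ϖ x g ∨
    ∃ (c : A) (e : ℕ), (∃ p : A[X], g = X - C c + C ϖ * p) ∧ 0 < e ∧ IsUnit ((e : ℕ) : A) ∧
      (∃ ζ : A, IsPrimitiveRoot ζ e) ∧ TameNear A E ϖ x c e ∧
      (∀ d : ℕ, d.Prime → d ∣ e →
        ∃ v : ValuationSubring E, IsPlace A E v ∧ ¬ OrdDvd E v d (x - algebraMap A E c))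

end Defs

/-! ## Statements -/

/-- **LEMMA T**: `B(x) ∩ ϖ C(x) = ϖ B(x)`. -/
def LemmaTStatement : Prop :=
  ∀ (A : Type) [CommRing A] [IsDomain A] [IsDiscreteValuationRing A]
    (E : Type) [Field E] [Algebra A E],
    Function.Injective (algebraMap A E) →
    ∀ (ϖ : A), Irreducible ϖ → ∀ (x : E), Transcendental A x →
      ∀ y ∈ chartClosure A E x, PiDvdSet A E ϖ (gaussClosure A E ϖ x) y →
        PiDvd ϖ (chartClosure A E x) 1 y

/-- The Gauss closure is a subring, contains `B(x)`, and is the same for `x` and `x⁻¹`. -/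
def GaussClosureStatement : Prop :=
  ∀ (A : Type) [CommRing A] [IsDomain A] [IsDiscreteValuationRing A]
    (E : Type) [Field E] [Algebra A E],
    Function.Injective (algebraMap A E) →
    ∀ (ϖ : A), Irreducible ϖ → ∀ (x : E), Transcendental A x →
      (∀ y ∈ chartClosure A E x, y ∈ gaussClosure A E ϖ x) ∧
      (∀ y ∈ gaussClosure A E ϖ x, ∀ z ∈ gaussClosure A E ϖ x,
        y + z ∈ gaussClosure A E ϖ x ∧ y * z ∈ gaussClosure A E ϖ x ∧
          -y ∈ gaussClosure A E ϖ x) ∧
      gaussClosure A E ϖ x⁻¹ = gaussClosure A E ϖ x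

/-- A good basis in the chart `x` gives a good basis in the chart `x⁻¹`. -/
def GoodBasisInvStatement : Prop :=
  ∀ (A : Type) [CommRing A] [IsDomain A] [IsDiscreteValuationRing A]
    (E : Type) [Field E] [Algebra A E],
    Function.Injective (algebraMap A E) →
    ∀ (ϖ : A), Irreducible ϖ → ∀ (x : E), Transcendental A x →
      GoodBasis A E ϖ x → GoodBasis A E ϖ x⁻¹

/-- **PURITY (B3)**: at a maximal ideal `(ϖ, g(x))` of `A[x]` all of whose characteristic-zero
places are unramified over `K₀(x)`, every idempotent of `C / ϖ C` comes from `B` after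
multiplication by some `s ∉ (ϖ, g)`.  (Proof: `B_M / ϖ` is torsion-free of rank `n` over the DVR
`(A[x] / ϖ)_M`, lift a basis, Nakayama; the discriminant of the resulting `A[x]_M`-basis of `B_M`
lies in no height-one prime of the UFD `A[x]_M`, so it is a unit; perfect trace form.) -/
def PurityStatement : Prop :=
  ∀ (A : Type) [CommRing A] [IsDomain A] [IsDiscreteValuationRing A]
    (E : Type) [Field E] [Algebra A E] [CharZero E],
    Function.Injective (algebraMap A E) →
    ∀ (ϖ : A), Irreducible ϖ → ∀ (x : E), Transcendental A x →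
      GoodBasis A E ϖ x →
      ∀ (g : A[X]), g.Monic → Irreducible (g.map (IsLocalRing.residue A)) →
        UnramifiedNear A E ϖ x g →
        ∀ y ∈ gaussClosure A E ϖ x,
          PiDvdSet A E ϖ (gaussClosure A E ϖ x) (y * y - y) →
          ∃ s : A[X], OutsideMax A ϖ g s ∧ ∃ b ∈ chartClosure A E x,
            PiDvdSet A E ϖ (gaussClosure A E ϖ x) (aeval x s * y - b)

/-- **KL-NORM, local form (purity + tame base change)**: at a maximal ideal `(ϖ, g(x))` of
`A[x]` satisfying the branch hypothesis, every idempotent of `C / ϖ C` comes from `B`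
after multiplication by some `s ∉ (ϖ, g)`. -/
def NormalityAtStatement : Prop :=
  ∀ (A : Type) [CommRing A] [IsDomain A] [IsDiscreteValuationRing A]
    (E : Type) [Field E] [Algebra A E] [CharZero E],
    Function.Injective (algebraMap A E) →
    ∀ (ϖ : A), Irreducible ϖ → ∀ (x : E), Transcendental A x →
      GoodBasis A E ϖ x →
      ∀ (g : A[X]), g.Monic → Irreducible (g.map (IsLocalRing.residue A)) →
        BranchHypAt A E ϖ x g →
        ∀ y ∈ gaussClosure A E ϖ x,
          PiDvdSet A E ϖ (gaussClosure A E ϖ x) (y * y - y) →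
          ∃ s : A[X], OutsideMax A ϖ g s ∧ ∃ b ∈ chartClosure A E x,
            PiDvdSet A E ϖ (gaussClosure A E ϖ x) (aeval x s * y - b)

/-- **KL-NORM, global form in the chart `x`**: if the branch hypothesis holds at every maximal
ideal `(ϖ, g(x))`, every idempotent of `C / ϖ C` comes from `B(x)`. -/
def NormalityStatement : Prop :=
  ∀ (A : Type) [CommRing A] [IsDomain A] [IsDiscreteValuationRing A]
    (E : Type) [Field E] [Algebra A E] [CharZero E],
    Function.Injective (algebraMap A E) →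
    ∀ (ϖ : A), Irreducible ϖ → ∀ (x : E), Transcendental A x →
      GoodBasis A E ϖ x →
      (∀ g : A[X], g.Monic → Irreducible (g.map (IsLocalRing.residue A)) →
        BranchHypAt A E ϖ x g) →
      ∀ y ∈ gaussClosure A E ϖ x,
        PiDvdSet A E ϖ (gaussClosure A E ϖ x) (y * y - y) →
        ∃ b ∈ chartClosure A E x, PiDvdSet A E ϖ (gaussClosure A E ϖ x) (y - b)

/-- **KL-NORM, chart at infinity**: if every idempotent of `C / ϖ C` comes from `B(x)` and the
branch hypothesis holds at the point `x⁻¹ = 0`, every idempotent comes from `B(x⁻¹)`. -/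
def NormalityInfStatement : Prop :=
  ∀ (A : Type) [CommRing A] [IsDomain A] [IsDiscreteValuationRing A]
    (E : Type) [Field E] [Algebra A E] [CharZero E],
    Function.Injective (algebraMap A E) →
    ∀ (ϖ : A), Irreducible ϖ → ∀ (x : E), Transcendental A x →
      GoodBasis A E ϖ x →
      BranchHypAt A E ϖ x⁻¹ (X : A[X]) →
      ∀ y ∈ gaussClosure A E ϖ x,
        PiDvdSet A E ϖ (gaussClosure A E ϖ x) (y * y - y) →
        (∃ b ∈ chartClosure A E x, PiDvdSet A E ϖ (gaussClosure A E ϖ x) (y - b)) →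
        ∃ b ∈ chartClosure A E x⁻¹, PiDvdSet A E ϖ (gaussClosure A E ϖ x) (y - b)

/-! ## The Kummer layer `E = E₀(w)`, `w ^ r = u`, `u ≡ 1 mod ϖ` -/

/-- **KL-KUM (1)**: a good basis of `E₀` gives a good basis of `E = E₀(w)`. -/
def KummerGoodBasisStatement : Prop :=
  ∀ (A : Type) [CommRing A] [IsDomain A] [IsDiscreteValuationRing A]
    (E₀ E : Type) [Field E₀] [Field E] [Algebra A E₀] [Algebra A E] [Algebra E₀ E]
    [IsScalarTower A E₀ E] [CharZero E₀],
    Function.Injective (algebraMap A E₀) →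
    ∀ (ϖ : A), Irreducible ϖ → ∀ (x : E₀), Transcendental A x →
    ∀ (r : ℕ), r.Prime → IsUnit ((r : ℕ) : A) →
    ∀ (u : E₀) (w : E), w ^ r = algebraMap E₀ E u → Algebra.adjoin E₀ ({w} : Set E) = ⊤ →
      Module.finrank E₀ E = r →
      u ∈ gaussClosure A E₀ ϖ x → PiDvdSet A E₀ ϖ (gaussClosure A E₀ ϖ x) (u - 1) →
      GoodBasis A E₀ ϖ x → GoodBasis A E ϖ (algebraMap E₀ E x)

/-- **KL-KUM (2)**: the special fibre of `E = E₀(w)` has a nontrivial idempotent. -/
def KummerIdempotentStatement : Prop :=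
  ∀ (A : Type) [CommRing A] [IsDomain A] [IsDiscreteValuationRing A]
    (E₀ E : Type) [Field E₀] [Field E] [Algebra A E₀] [Algebra A E] [Algebra E₀ E]
    [IsScalarTower A E₀ E] [CharZero E₀],
    Function.Injective (algebraMap A E₀) →
    ∀ (ϖ : A), Irreducible ϖ → ∀ (x : E₀), Transcendental A x →
    ∀ (r : ℕ), r.Prime → IsUnit ((r : ℕ) : A) → (∃ ζ : A, IsPrimitiveRoot ζ r) →
    ∀ (u : E₀) (w : E), w ^ r = algebraMap E₀ E u → Algebra.adjoin E₀ ({w} : Set E) = ⊤ →
      Module.finrank E₀ E = r →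
      u ∈ gaussClosure A E₀ ϖ x → PiDvdSet A E₀ ϖ (gaussClosure A E₀ ϖ x) (u - 1) →
      ∃ e ∈ gaussClosure A E ϖ (algebraMap E₀ E x),
        PiDvdSet A E ϖ (gaussClosure A E ϖ (algebraMap E₀ E x)) (e * e - e) ∧
        ¬ PiDvdSet A E ϖ (gaussClosure A E ϖ (algebraMap E₀ E x)) e ∧
        ¬ PiDvdSet A E ϖ (gaussClosure A E ϖ (algebraMap E₀ E x)) (1 - e)

/-- **KL-KUM (3)**: the branch hypothesis passes from `E₀` to the unramified Kummer extension
`E = E₀(w)` (`r ∣ ord_v u` at every place `v` of `E₀`). -/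
def KummerBranchStatement : Prop :=
  ∀ (A : Type) [CommRing A] [IsDomain A] [IsDiscreteValuationRing A]
    (E₀ E : Type) [Field E₀] [Field E] [Algebra A E₀] [Algebra A E] [Algebra E₀ E]
    [IsScalarTower A E₀ E] [CharZero E₀],
    Function.Injective (algebraMap A E₀) →
    ∀ (ϖ : A), Irreducible ϖ → ∀ (x : E₀), Transcendental A x →
    ∀ (r : ℕ), r.Prime →
    ∀ (u : E₀) (w : E), w ^ r = algebraMap E₀ E u → Algebra.adjoin E₀ ({w} : Set E) = ⊤ →
      Module.finrank E₀ E = r → u ≠ 0 →
      (∀ v : ValuationSubring E₀, IsPlace A E₀ v → OrdDvd E₀ v r u) →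
      ∀ (y : E₀) (g : A[X]), y = x ∨ y = x⁻¹ →
        BranchHypAt A E₀ ϖ y g → BranchHypAt A E ϖ (algebraMap E₀ E y) g

/-! ## The abstract key lemma -/

/-- **No unramified Kummer extension with trivial reduction** (abstract core of KL):
in the setting of KL-NORM for `E₀` (good basis, branch hypotheses in both charts), a Kummer
extension `E = E₀(w)`, `w ^ r = u`, of degree `r` with `u ≡ 1 mod ϖ`, `r ∣ ord_v u` everywhere
and with constants `B_E(x) ∩ B_E(x⁻¹) = A` does not exist. -/
def NoKummerStatement : Prop :=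
  ∀ (A : Type) [CommRing A] [IsDomain A] [IsDiscreteValuationRing A]
    (E₀ E : Type) [Field E₀] [Field E] [Algebra A E₀] [Algebra A E] [Algebra E₀ E]
    [IsScalarTower A E₀ E] [CharZero E₀],
    Function.Injective (algebraMap A E₀) →
    ∀ (ϖ : A), Irreducible ϖ → ∀ (x : E₀), Transcendental A x →
    GoodBasis A E₀ ϖ x →
    (∀ g : A[X], g.Monic → Irreducible (g.map (IsLocalRing.residue A)) →
      BranchHypAt A E₀ ϖ x g) →
    BranchHypAt A E₀ ϖ x⁻¹ (X : A[X]) →
    ∀ (r : ℕ), r.Prime → IsUnit ((r : ℕ) : A) → (∃ ζ : A, IsPrimitiveRoot ζ r) →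
    ∀ (u : E₀) (w : E), w ^ r = algebraMap E₀ E u → Algebra.adjoin E₀ ({w} : Set E) = ⊤ →
      Module.finrank E₀ E = r →
      u ∈ gaussClosure A E₀ ϖ x → PiDvdSet A E₀ ϖ (gaussClosure A E₀ ϖ x) (u - 1) →
      (∀ v : ValuationSubring E₀, IsPlace A E₀ v → OrdDvd E₀ v r u) →
      (∀ z : E, z ∈ chartClosure A E (algebraMap E₀ E x) →
        z ∈ chartClosure A E (algebraMap E₀ E x)⁻¹ → z ∈ (algebraMap A E).range) →
      False

/-- **ABSTRACT KEY LEMMA**: in the setting of KL-NORM for `E₀`, if `E₀` sits in a field `Ω` in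
which `A` is integrally closed (e.g. `Ω = K₀((q))`) and `u ∈ E₀`, `u ≡ 1 mod ϖ`, has
`r ∣ ord_v u` at all places and an `r`-th root in `Ω`, then `u` is an `r`-th power in `E₀`. -/
def AbstractKeyLemmaStatement : Prop :=
  ∀ (A : Type) [CommRing A] [IsDomain A] [IsDiscreteValuationRing A]
    (E₀ Ω : Type) [Field E₀] [Field Ω] [Algebra A E₀] [Algebra A Ω] [Algebra E₀ Ω]
    [IsScalarTower A E₀ Ω] [CharZero E₀],
    Function.Injective (algebraMap A E₀) →
    ∀ (ϖ : A), Irreducible ϖ → ∀ (x : E₀), Transcendental A x →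
    GoodBasis A E₀ ϖ x →
    (∀ g : A[X], g.Monic → Irreducible (g.map (IsLocalRing.residue A)) →
      BranchHypAt A E₀ ϖ x g) →
    BranchHypAt A E₀ ϖ x⁻¹ (X : A[X]) →
    (∀ z : Ω, IsIntegral A z → z ∈ (algebraMap A Ω).range) →
    ∀ (r : ℕ), r.Prime → IsUnit ((r : ℕ) : A) → (∃ ζ : A, IsPrimitiveRoot ζ r) →
    ∀ (u : E₀), u ∈ gaussClosure A E₀ ϖ x →
      PiDvdSet A E₀ ϖ (gaussClosure A E₀ ϖ x) (u - 1) →
      (∀ v : ValuationSubring E₀, IsPlace A E₀ v → OrdDvd E₀ v r u) →
      (∃ w : Ω, w ^ r = algebraMap E₀ Ω u) →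
      ∃ w₀ : E₀, w₀ ^ r = u

end Fermat.Agent.H22.KL
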