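import Mathlib
import Fermat.Prelude.Def_ModularCurve_ArithmeticGalois
import Fermat.Prelude.Def_FLTPrelim_Ramification
import Fermat.Agent.H22.ES.KLSetting

/-!
# P-ES / KEY LEMMA, route B : the CONCRETE MODEL for KL-ASM (helper22)

The abstract key lemma (`AbstractKeyLemmaStatement`, module `KLSetting`) is applied to

* `K₁` a number field (an abstract field, finite over `ℚ`; in the assembly `K₁ = ↥K` for a
  finite intermediate field `K` of `ℚ̄/ℚ` and `ι = algebraMap ↥K ℚ̄`),
* `A₀` a discrete valuation ring with fraction field `K₁` in which the prime `ℓ` is not a unit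
  (in the assembly `A₀ = ↥(A.comap ι)` for the valuation subring `A` of `ℚ̄`),
* `E₀ = ModelField K₁ N = laurentBaseChange K₁ (modularFunctionFieldFull N) ⊆ K₁((q))`,
* `Ω = K₁((q))`,
* the coordinate `x ∈ E₀` with `q`-expansion `coeffEmb K₁ x₀`, `x₀ : LaurentSeries ℚ`
  (`x₀ = jq` for `ℓ ≥ 5`; the Hauptmoduln `t₂`, `t₃` for `ℓ = 3`, `2 ∣ N` and `ℓ = 2`, `3 ∣ N`).

This file contains ONLY the `Prop`-valued statements of the inputs which are specific to the
modular fields (`Model*Statement`).  They are stated for an ABSTRACT discrete valuation ring `A₀`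
so that providers do not depend on instance paths.  The assembly is in `KLAsm`.
-/

set_option autoImplicit false

noncomputable section

namespace Fermat.Agent.H22.KL

open Polynomial ModularCurve AlgebraicCurve

/-- `E₀ = K₁(j(q^d) : d ∣ N) ⊆ K₁((q))`, the modular function field over `K₁`. -/
abbrev ModelField (K₁ : Type) [Field K₁] [Algebra ℚ K₁] (N : ℕ) : Type :=
  ↥(laurentBaseChange K₁ (modularFunctionFieldFull N))

/-- **KL-M-DVR**: the trace `A ∩ K₁` of a valuation subring `A` of `ℚ̄` over `ℓ` on a number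
field `K₁ ⊆ ℚ̄` is a discrete valuation ring.  (It is the localisation of the ring of integers
of `K₁` at the prime `𝔪_A ∩ 𝒪_{K₁}`: a DVR is a maximal proper subring of its fraction field.) -/
def ModelDVRStatement : Prop :=
  ∀ (K₁ : Type) [Field K₁] [Algebra ℚ K₁] [FiniteDimensional ℚ K₁]
    (ι : K₁ →+* AlgebraicClosure ℚ) (A : ValuationSubring (AlgebraicClosure ℚ)) (ℓ : ℕ),
    ℓ.Prime → A.LiesOverPrime ℓ → IsDiscreteValuationRing ↥(A.comap ι)

/-- **KL-M-TR**: the coordinate is transcendental over `A₀`. -/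
def ModelTranscendentalStatement (N : ℕ) (x₀ : LaurentSeries ℚ) : Prop :=
  ∀ (K₁ : Type) [Field K₁] [Algebra ℚ K₁]
    (A₀ : Type) [CommRing A₀] [IsDomain A₀] [Algebra A₀ K₁] [IsFractionRing A₀ K₁]
    [Algebra A₀ (ModelField K₁ N)] [IsScalarTower A₀ K₁ (ModelField K₁ N)]
    (x : ModelField K₁ N), (x : LaurentSeries K₁) = coeffEmb K₁ x₀ → Transcendental A₀ x

/-- **KL-GB (concrete form)**: the modular function field over `K₁` has a good basis at every
discrete valuation ring `A₀` of `K₁` over `ℓ`, in the chart `x`. -/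
def ModelGoodBasisStatement (N ℓ : ℕ) (x₀ : LaurentSeries ℚ) : Prop :=
  ∀ (K₁ : Type) [Field K₁] [Algebra ℚ K₁] [FiniteDimensional ℚ K₁]
    (A₀ : Type) [CommRing A₀] [IsDomain A₀] [IsDiscreteValuationRing A₀]
    [Algebra A₀ K₁] [IsFractionRing A₀ K₁]
    [Algebra A₀ (ModelField K₁ N)] [IsScalarTower A₀ K₁ (ModelField K₁ N)],
    ¬ IsUnit ((ℓ : ℕ) : A₀) →
    ∀ (ϖ : A₀), Irreducible ϖ →
    ∀ (x : ModelField K₁ N), (x : LaurentSeries K₁) = coeffEmb K₁ x₀ →
      GoodBasis A₀ (ModelField K₁ N) ϖ x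

/-- **KL-BR (concrete form)**: if `K₁` contains a primitive `M`-th root of unity (`M` chosen by
the provider, e.g. `M = 6 N` for `x = j`), the branch hypothesis holds at every maximal ideal
`(ϖ, g(x))` of `A₀[x]` and at the point `x⁻¹ = 0` of the chart at infinity. -/
def ModelBranchStatement (N ℓ : ℕ) (x₀ : LaurentSeries ℚ) (M : ℕ) : Prop :=
  ∀ (K₁ : Type) [Field K₁] [Algebra ℚ K₁] [FiniteDimensional ℚ K₁]
    (A₀ : Type) [CommRing A₀] [IsDomain A₀] [IsDiscreteValuationRing A₀]
    [Algebra A₀ K₁] [IsFractionRing A₀ K₁]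
    [Algebra A₀ (ModelField K₁ N)] [IsScalarTower A₀ K₁ (ModelField K₁ N)],
    ¬ IsUnit ((ℓ : ℕ) : A₀) →
    (∃ ζ : K₁, IsPrimitiveRoot ζ M) →
    ∀ (ϖ : A₀), Irreducible ϖ →
    ∀ (x : ModelField K₁ N), (x : LaurentSeries K₁) = coeffEmb K₁ x₀ →
      (∀ g : A₀[X], g.Monic → Irreducible (g.map (IsLocalRing.residue A₀)) →
        BranchHypAt A₀ (ModelField K₁ N) ϖ x g) ∧
      BranchHypAt A₀ (ModelField K₁ N) ϖ x⁻¹ (X : A₀[X])

/-- **KL-M-QEXP** (`q`-expansion principle, Gauss form): a quotient `a / b` of two elements of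
`E₀` with `A₀`-integral `q`-expansions, the denominator having a unit coefficient, lies in the
Gauss closure `C(x)`.  (The Gauss valuation of `K₁(x)` has a unique extension to `E₀`, namely
the Gauss norm of `q`-expansions: take a good basis `b_i` with integral `q`-expansions whose
reductions are linearly independent over `k₀(x̄)` - degree equality of P-IGUSA; if
`h · a = b · Σ p_i b_i` with `ϖ ∣ h` and some `ϖ ∤ p_i`, reduce modulo `ϖ`.) -/
def ModelQExpStatement (N ℓ : ℕ) (x₀ : LaurentSeries ℚ) : Prop :=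
  ∀ (K₁ : Type) [Field K₁] [Algebra ℚ K₁] [FiniteDimensional ℚ K₁]
    (A₀ : Type) [CommRing A₀] [IsDomain A₀] [IsDiscreteValuationRing A₀]
    [Algebra A₀ K₁] [IsFractionRing A₀ K₁]
    [Algebra A₀ (ModelField K₁ N)] [IsScalarTower A₀ K₁ (ModelField K₁ N)],
    ¬ IsUnit ((ℓ : ℕ) : A₀) →
    ∀ (ϖ : A₀), Irreducible ϖ →
    ∀ (x : ModelField K₁ N), (x : LaurentSeries K₁) = coeffEmb K₁ x₀ →
    ∀ (a b : ModelField K₁ N),
      (∀ n : ℤ, (a : LaurentSeries K₁).coeff n ∈ (algebraMap A₀ K₁).range) →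
      (∀ n : ℤ, (b : LaurentSeries K₁).coeff n ∈ (algebraMap A₀ K₁).range) →
      (∃ (n : ℤ) (c : A₀), IsUnit c ∧ algebraMap A₀ K₁ c = (b : LaurentSeries K₁).coeff n) →
      a / b ∈ gaussClosure A₀ (ModelField K₁ N) ϖ x

/-- **KL-M-CUSP**: the `q`-order is a place of `E₀ / K₁` (the cusp `∞`). -/
def ModelCuspPlaceStatement (N : ℕ) : Prop :=
  ∀ (K₁ : Type) [Field K₁] [Algebra ℚ K₁],
    ∃ P : Place K₁ (ModelField K₁ N),
      ∀ f : ModelField K₁ N, f ≠ 0 → P.ord f = (f : LaurentSeries K₁).order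

/-- **KL-M-ROOT** (Mathlib only): a nonzero Laurent series over a field of characteristic zero
whose order is divisible by `r` and whose leading coefficient is an `r`-th power is an `r`-th
power. -/
def ModelRootStatement : Prop :=
  ∀ (K₁ : Type) [Field K₁] [CharZero K₁] (r : ℕ), 0 < r →
    ∀ u : LaurentSeries K₁, u ≠ 0 → (r : ℤ) ∣ u.order →
      (∃ γ : K₁, γ ^ r = u.leadingCoeff) → ∃ w : LaurentSeries K₁, w ^ r = u

/-- **KL-M-CONST** (Mathlib only): `K₁` is algebraically closed in `K₁((q))`.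
(VERSION 2: stated over `K₁` only.  The first version carried an instance binder
`[Algebra A₀ (LaurentSeries K₁)]` which is shadowed by the canonical coefficientwise action of
`A₀` on Laurent series, so that its `IsScalarTower` hypothesis did not constrain it.) -/
def ModelConstStatement : Prop :=
  ∀ (K₁ : Type) [Field K₁] (z : LaurentSeries K₁), IsAlgebraic K₁ z →
    z ∈ (algebraMap K₁ (LaurentSeries K₁)).range

end Fermat.Agent.H22.KL
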