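import Mathlib
import Fermat.Prelude.Def_ModularCurve_ReductionModL
import Fermat.Prelude.Def_EllipticCurve_FrobeniusTrace
import Fermat.Prelude.Def_GaloisRep_Residual

/-!
# P-ES : architecture interfaces (helper22)

`Prop`-valued statements only (no proofs).  See findings "P-ES ARCHITECTURE v1 (helper22)".

* `KeyLemmaStatement N ℓ` : the KEY LEMMA `KL(N, ℓ)`.
* `ConnectednessStatement` : (B7), Mathlib-only, the special fibre of a two-chart model with
  `H⁰ = A₀` has no nontrivial idempotent.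
* `TorsionUnramifiedStatement N`, `TorsionHeckeDatum N p`, `EichlerShimuraTorsionStatement` :
  the `J`-side shapes consumed by ES-G.
-/

set_option autoImplicit false

noncomputable section

namespace Fermat.Agent.H22.ES

open ModularCurve AlgebraicCurve

/-- `ℚ̄` in the prelude's model. -/
abbrev QB : Type := AlgebraicClosure ℚ

/-- The absolute Galois group of `ℚ` in the prelude's model. -/
abbrev GalQ : Type := AlgebraicClosure ℚ ≃ₐ[ℚ] AlgebraicClosure ℚ

/-- `J₀(N)(ℚ̄)[n]` in the prelude's model. -/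
abbrev JTors (N n : ℕ) : Type :=
  Pic0.torsion (AlgebraicClosure ℚ) (modularFunctionFieldBar N) n

/-! ## The key lemma -/

/-- **KEY LEMMA `KL(N, ℓ)`.**  `A` a valuation subring of `ℚ̄` over `ℓ`, `m > 0` prime to `ℓ`,
`a b` Laurent series over `A` lying in the function field `F = modularFunctionFieldBar N`,
with EQUAL NONZERO reductions, such that `m ∣ ord_P (a / b)` at every place `P` of `F`.
Then `a / b` is an `m`-th power in `F`. -/
def KeyLemmaStatement (N ℓ : ℕ) : Prop :=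
  ∀ (A : ValuationSubring (AlgebraicClosure ℚ)), A.LiesOverPrime ℓ →
    ∀ (m : ℕ), 0 < m → ¬ ℓ ∣ m →
      ∀ (a b : LaurentSeries A)
        (ha : coeffMap A.subtype a ∈ modularFunctionFieldBar N)
        (hb : coeffMap A.subtype b ∈ modularFunctionFieldBar N),
        coeffMap (IsLocalRing.residue A) a = coeffMap (IsLocalRing.residue A) b →
        coeffMap (IsLocalRing.residue A) a ≠ 0 →
        (∀ P : Place (AlgebraicClosure ℚ) (modularFunctionFieldBar N),
          (m : ℤ) ∣ P.ord (⟨coeffMap A.subtype a, ha⟩ : modularFunctionFieldBar N)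
            - P.ord (⟨coeffMap A.subtype b, hb⟩ : modularFunctionFieldBar N)) →
        ∃ w : modularFunctionFieldBar N,
          w ^ m * (⟨coeffMap A.subtype b, hb⟩ : modularFunctionFieldBar N)
            = (⟨coeffMap A.subtype a, ha⟩ : modularFunctionFieldBar N)

/-- The key lemma at all good primes of a level. -/
def KeyLemmaAllStatement : Prop :=
  ∀ (N : ℕ) [NeZero N] (ℓ : ℕ), ℓ.Prime → ¬ ℓ ∣ N → KeyLemmaStatement N ℓ

/-- **Gauss normal form (GNF).**  Every nonzero element of `F` is `c · a / b` with `c ∈ ℚ̄ˣ`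
and `a b ∈ F ∩ A((q))` with nonzero reductions. -/
def GaussNormalFormStatement (N : ℕ) : Prop :=
  ∀ (A : ValuationSubring (AlgebraicClosure ℚ)) (ℓ : ℕ), ℓ.Prime → A.LiesOverPrime ℓ →
    ∀ f : modularFunctionFieldBar N, f ≠ 0 →
      ∃ (c : AlgebraicClosure ℚ) (a b : LaurentSeries A)
        (ha : coeffMap A.subtype a ∈ modularFunctionFieldBar N)
        (hb : coeffMap A.subtype b ∈ modularFunctionFieldBar N),
        c ≠ 0 ∧ coeffMap (IsLocalRing.residue A) a ≠ 0 ∧
        coeffMap (IsLocalRing.residue A) b ≠ 0 ∧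
        f * (⟨coeffMap A.subtype b, hb⟩ : modularFunctionFieldBar N)
          = algebraMap (AlgebraicClosure ℚ) (modularFunctionFieldBar N) c
            * (⟨coeffMap A.subtype a, ha⟩ : modularFunctionFieldBar N)

/-! ## (B7) Connectedness -/

/-- **(B7) CONNECTEDNESS** (Mathlib only).  `A₀` a DVR with uniformiser `ϖ`, `E` a field
containing `A₀`, `x ∈ Eˣ`, `Rfin ∋ x`, `Rinf ∋ x⁻¹` two `A₀`-subalgebras of `E` (the two charts)
with `Rfin` module-finite over `A₀[x]`, `Rfin[1/x] = Rinf[x]`, and `Rfin ∩ Rinf = A₀`.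
Then the special fibre has no nontrivial idempotent: if `a ∈ Rfin`, `b ∈ Rinf` are idempotent
modulo `ϖ` and agree modulo `ϖ` on the overlap, then both are `≡ 0` or both are `≡ 1`. -/
def ConnectednessStatement : Prop :=
  ∀ (A₀ : Type) [CommRing A₀] [IsDomain A₀] [IsDiscreteValuationRing A₀]
    (E : Type) [Field E] [Algebra A₀ E],
    Function.Injective (algebraMap A₀ E) →
    ∀ (ϖ : A₀), Irreducible ϖ →
    ∀ (x : E), x ≠ 0 →
    ∀ (Rfin Rinf : Subalgebra A₀ E), x ∈ Rfin → x⁻¹ ∈ Rinf →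
      (∃ s : Finset E, (∀ y ∈ s, y ∈ Rfin) ∧
        ∀ y ∈ Rfin, y ∈ Submodule.span (Algebra.adjoin A₀ ({x} : Set E)) (s : Set E)) →
      (∀ y ∈ Rfin, ∃ n : ℕ, y * x⁻¹ ^ n ∈ Rinf) →
      (∀ y ∈ Rinf, ∃ n : ℕ, y * x ^ n ∈ Rfin) →
      (∀ y, y ∈ Rfin → y ∈ Rinf → y ∈ (algebraMap A₀ E).range) →
      ∀ a ∈ Rfin, ∀ b ∈ Rinf,
        (∃ c ∈ Rfin, a * a - a = algebraMap A₀ E ϖ * c) →
        (∃ c ∈ Rinf, b * b - b = algebraMap A₀ E ϖ * c) →
        (∃ c ∈ Rfin, ∃ n : ℕ, a - b = algebraMap A₀ E ϖ * (c * x⁻¹ ^ n)) →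
        ((∃ c ∈ Rfin, a = algebraMap A₀ E ϖ * c) ∧ (∃ c ∈ Rinf, b = algebraMap A₀ E ϖ * c)) ∨
        ((∃ c ∈ Rfin, 1 - a = algebraMap A₀ E ϖ * c) ∧
          (∃ c ∈ Rinf, 1 - b = algebraMap A₀ E ϖ * c))

/-! ## The `J`-side shapes for ES-G -/

/-- **(U)** at level `N`: inertia at `ℓ ∤ N` acts trivially on prime-to-`ℓ` torsion of `J₀(N)`. -/
def TorsionUnramifiedStatement (N : ℕ) : Prop :=
  ∀ (ℓ : ℕ), ℓ.Prime → ¬ ℓ ∣ N → ∀ (m : ℕ), 0 < m → ¬ ℓ ∣ m →
    ∀ (A : ValuationSubring (AlgebraicClosure ℚ)), A.LiesOverPrime ℓ →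
      ∀ σ ∈ A.inertiaSubgroupIn ℚ, ∀ x : JZero N, m • x = 0 → σ • x = x

/-- Hecke operators on `J₀(N)[n]` commuting with `G_ℚ` and satisfying the Eichler–Shimura
relation at Frobenius elements of good primes.  (NO commutativity among the `T ℓ`, NO faithful
Hecke ring is required: ES-G uses the `G_ℚ`-span of ONE eigenvector.) -/
structure TorsionHeckeDatum (N n : ℕ) where
  /-- the operators `T_ℓ` (only the values at primes `ℓ ∤ N n` matter) -/
  T : ℕ → Module.End (ZMod n) (JTors N n)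
  galois : ∀ (ℓ : ℕ) (σ : GalQ), T ℓ * JZero.torsionGaloisRep N n σ
      = JZero.torsionGaloisRep N n σ * T ℓ
  eichlerShimura : ∀ (ℓ : ℕ), ℓ.Prime → ¬ ℓ ∣ N * n →
    ∀ (A : ValuationSubring (AlgebraicClosure ℚ)), A.LiesOverPrime ℓ →
      ∀ σ : GalQ, A.IsFrobeniusAt σ ℓ →
        JZero.torsionGaloisRep N n σ * JZero.torsionGaloisRep N n σ
          - T ℓ * JZero.torsionGaloisRep N n σ
          + (ℓ : ZMod n) • (1 : Module.End (ZMod n) (JTors N n)) = 0

/-- The eigen-system of `g` modulo `φ` occurs in `J₀(N)[p]`, eigenvector form: there is a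
nonzero vector of `k ⊗ J₀(N)[p]` on which every `T_ℓ` (`ℓ ∤ N p` prime) acts by `φ (a_ℓ g)`. -/
def TorsionHeckeDatum.OccursVec {N p : ℕ} (D : TorsionHeckeDatum N p)
    (g : CuspForm (CongruenceSubgroup.Gamma0 N) 2) : Prop :=
  ∀ (k : Type) [Field k] [Algebra (ZMod p) k] (φ : integralClosure ℤ ℂ →+* k),
    ∃ v : TensorProduct (ZMod p) k (JTors N p), v ≠ 0 ∧
      ∀ ℓ : ℕ, ℓ.Prime → ¬ ℓ ∣ N * p →
        ∃ a : integralClosure ℤ ℂ, (a : ℂ) = ModularFormClass.qCoeff g ℓ ∧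
          (D.T ℓ).baseChange k v = φ a • v

/-- **The torsion package** (target of ES-A..ES-E for `S29`/`S42`): for every level `N ≠ 0` and
prime `p`: `J₀(N)[p]` is finite, unramified outside `N p`, and carries Hecke operators with the
Eichler–Shimura relation for which the eigen-system of every normalised eigenform occurs. -/
def EichlerShimuraTorsionStatement : Prop :=
  ∀ (N : ℕ) [NeZero N] (p : ℕ), p.Prime →
    Finite (JTors N p) ∧
    (∀ (ℓ : ℕ), ℓ.Prime → ¬ ℓ ∣ N * p →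
      ∀ (A : ValuationSubring (AlgebraicClosure ℚ)), A.LiesOverPrime ℓ →
        ∀ σ ∈ A.inertiaSubgroupIn ℚ, JZero.torsionGaloisRep N p σ = 1) ∧
    ∃ D : TorsionHeckeDatum N p,
      ∀ g : CuspForm (CongruenceSubgroup.Gamma0 N) 2, g.IsNormalizedEigenform → D.OccursVec g

end Fermat.Agent.H22.ES
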