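import Fermat.Agent.H22.ES.KLModel

/-!
# P-ES / KEY LEMMA, route B : assembly, part 1 (helper22)

The abstract key lemma applied to the concrete model of `KLModel`, for an abstract discrete
valuation ring `A₀` with fraction field `K₁`.
-/

set_option autoImplicit false

noncomputable section

namespace Fermat.Agent.H22.KL

open Polynomial ModularCurve AlgebraicCurve

section Generic

variable {K₁ : Type} [Field K₁] {E : Type} [Field E] [Algebra K₁ E]

/-- A place in the sense of `IsPlace` is a prelude `Place`. -/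
theorem klAsm_exists_place {A₀ : Type} [CommRing A₀] [Algebra A₀ K₁] [IsFractionRing A₀ K₁]
    [Algebra A₀ E] [IsScalarTower A₀ K₁ E] (v : ValuationSubring E) (hv : IsPlace A₀ E v) :
    ∃ P : Place K₁ E, P.toValuationSubring = v := by
  obtain ⟨hne, hpid, hmem⟩ := hv
  refine ⟨⟨v, ?_, hne, hpid⟩, rfl⟩
  intro k
  obtain ⟨a, b, hb, rfl⟩ := IsFractionRing.div_surjective (A := A₀) k
  haveI : Nontrivial A₀ := (algebraMap A₀ K₁).domain_nontrivial
  have hb0 : b ≠ 0 := nonZeroDivisors.ne_zero hb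
  rw [map_div₀, ← IsScalarTower.algebraMap_apply, ← IsScalarTower.algebraMap_apply,
    div_eq_mul_inv]
  refine v.mul_mem _ _ ?_ (hmem b hb0).2
  rcases eq_or_ne a 0 with rfl | ha
  · simp [v.zero_mem]
  · exact (hmem a ha).1

/-- `r ∣ ord_P u` gives `OrdDvd`. -/
theorem klAsm_ordDvd_of_place (P : Place K₁ E) (r : ℕ) (u : E) (hu : u ≠ 0)
    (h : (r : ℤ) ∣ P.ord u) : OrdDvd E P.toValuationSubring r u := by
  obtain ⟨π, hπ⟩ := IsDiscreteValuationRing.exists_irreducible P.toValuationSubring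
  obtain ⟨k, hk⟩ := h
  obtain ⟨w, hw⟩ := P.exists_unit_mul_zpow hu hπ
  have hπ0 : (π : E) ≠ 0 := by
    simpa [ne_eq, ZeroMemClass.coe_eq_zero] using hπ.ne_zero
  refine ⟨(π : E) ^ (-k), zpow_ne_zero _ hπ0, ?_⟩
  have key : u * ((π : E) ^ (-k)) ^ r = ((w : P.toValuationSubring) : E) := by
    conv_lhs => rw [hw, hk]
    rw [← zpow_natCast ((π : E) ^ (-k)) r, ← zpow_mul, mul_assoc, ← zpow_add₀ hπ0]
    have : (r : ℤ) * k + -k * (r : ℤ) = 0 := by ring
    rw [this, zpow_zero, mul_one]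
  rw [key]
  refine ⟨(w : P.toValuationSubring).2, ?_⟩
  have h1 : (((w⁻¹ : P.toValuationSubringˣ) : P.toValuationSubring) : E)
      = (((w : P.toValuationSubring) : E))⁻¹ := by
    have h2 : (((w : P.toValuationSubring) : E))
        * (((w⁻¹ : P.toValuationSubringˣ) : P.toValuationSubring) : E) = 1 := by
      have h3 : (w : P.toValuationSubring) * ((w⁻¹ : P.toValuationSubringˣ) :
          P.toValuationSubring) = 1 := Units.mul_inv w
      have h4 := congrArg (fun z : P.toValuationSubring => (z : E)) h3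
      simpa only [MulMemClass.coe_mul, OneMemClass.coe_one] using h4
    exact eq_inv_of_mul_eq_one_right h2
  rw [← h1]
  exact ((w⁻¹ : P.toValuationSubringˣ) : P.toValuationSubring).2

end Generic

section LeadingCoeff

variable {R : Type} [CommRing R] [IsDomain R]

theorem klAsm_leadingCoeff_pow (x : LaurentSeries R) (n : ℕ) :
    (x ^ n).leadingCoeff = x.leadingCoeff ^ n := by
  induction n with
  | zero => simp
  | succ n ih => rw [pow_succ, HahnSeries.leadingCoeff_mul, ih, pow_succ]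

end LeadingCoeff

end Fermat.Agent.H22.KL

namespace Fermat.Agent.H22.KL

open Polynomial ModularCurve AlgebraicCurve

section Core

variable (N ℓ : ℕ) (x₀ : LaurentSeries ℚ) (M : ℕ)

/-- **KL-ASM, core**: the abstract key lemma applied to the modular function field over a
number field `K₁` with an abstract discrete valuation ring `A₀`. -/
theorem klAsm_core (hx₀ : x₀ ∈ modularFunctionFieldFull N)
    (hAbs : AbstractKeyLemmaStatement) (hTr : ModelTranscendentalStatement N x₀)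
    (hGB : ModelGoodBasisStatement N ℓ x₀) (hBR : ModelBranchStatement N ℓ x₀ M)
    (hQ : ModelQExpStatement N ℓ x₀) (hCusp : ModelCuspPlaceStatement N)
    (hRoot : ModelRootStatement) (hConst : ModelConstStatement)
    (K₁ : Type) [Field K₁] [Algebra ℚ K₁] [FiniteDimensional ℚ K₁]
    (A₀ : Type) [CommRing A₀] [IsDomain A₀] [IsDiscreteValuationRing A₀]
    [Algebra A₀ K₁] [IsFractionRing A₀ K₁]
    [Algebra A₀ (ModelField K₁ N)] [IsScalarTower A₀ K₁ (ModelField K₁ N)]
    (hℓ : ¬ IsUnit ((ℓ : ℕ) : A₀))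
    (hζM : ∃ ζ : K₁, IsPrimitiveRoot ζ M)
    (r : ℕ) (hr : r.Prime) (hrA : IsUnit ((r : ℕ) : A₀)) (hζr : ∃ ζ : K₁, IsPrimitiveRoot ζ r)
    (a b : ModelField K₁ N)
    (ha : ∀ n : ℤ, (a : LaurentSeries K₁).coeff n ∈ (algebraMap A₀ K₁).range)
    (hb : ∀ n : ℤ, (b : LaurentSeries K₁).coeff n ∈ (algebraMap A₀ K₁).range)
    (hbu : ∃ (n : ℤ) (c : A₀), IsUnit c ∧ algebraMap A₀ K₁ c = (b : LaurentSeries K₁).coeff n)
    (hab : ∀ n : ℤ, ∃ c : A₀, ¬ IsUnit c ∧
      algebraMap A₀ K₁ c = ((a : LaurentSeries K₁) - (b : LaurentSeries K₁)).coeff n)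
    (hord : ∀ P : Place K₁ (ModelField K₁ N), (r : ℤ) ∣ P.ord a - P.ord b)
    (hγ : ∃ γ : K₁, γ ^ r * (b : LaurentSeries K₁).leadingCoeff
      = (a : LaurentSeries K₁).leadingCoeff) :
    ∃ w : ModelField K₁ N, w ^ r * b = a := by
  classical
  -- the coordinate
  let x : ModelField K₁ N := ⟨coeffEmb K₁ x₀, coeffEmb_mem_laurentBaseChange K₁ hx₀⟩
  have hx : (x : LaurentSeries K₁) = coeffEmb K₁ x₀ := rfl
  obtain ⟨ϖ, hϖ⟩ := IsDiscreteValuationRing.exists_irreducible A₀
  have hinjK : Function.Injective (algebraMap A₀ K₁) := IsFractionRing.injective A₀ K₁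
  -- `b ≠ 0`, `a ≠ 0`
  have hb0 : b ≠ 0 := by
    obtain ⟨n, c, hc, hcn⟩ := hbu
    intro h
    rw [h] at hcn
    have : algebraMap A₀ K₁ c = 0 := by simpa using hcn
    have hc0 : c = 0 := hinjK (by rw [this, map_zero])
    exact not_isUnit_zero (hc0 ▸ hc)
  have ha0 : a ≠ 0 := by
    obtain ⟨n, c, hc, hcn⟩ := hbu
    obtain ⟨d, hd, hdn⟩ := hab n
    intro h
    rw [h] at hdn
    have h1 : algebraMap A₀ K₁ d = - algebraMap A₀ K₁ c := by
      rw [hdn, hcn]
      simp
    have h2 : d = -c := hinjK (by rw [h1, map_neg])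
    exact hd (h2 ▸ hc.neg)
  have hbL : (b : LaurentSeries K₁) ≠ 0 := fun h => hb0 (Subtype.ext h)
  have haL : (a : LaurentSeries K₁) ≠ 0 := fun h => ha0 (Subtype.ext h)
  -- the instances on `Ω = K₁((q))` (canonical algebra structure over `A₀`)
  have hmapΩ : ∀ c : A₀, algebraMap A₀ (LaurentSeries K₁) c
      = algebraMap K₁ (LaurentSeries K₁) (algebraMap A₀ K₁ c) := by
    intro c
    simp [HahnSeries.algebraMap_apply', PowerSeries.algebraMap_apply]
  haveI towK := IsScalarTower.of_algebraMap_eq (R := A₀) (S := K₁) (A := LaurentSeries K₁) hmapΩ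
  haveI towE := IsScalarTower.of_algebraMap_eq (R := A₀) (S := ModelField K₁ N)
    (A := LaurentSeries K₁) (fun c => by
      rw [hmapΩ, IsScalarTower.algebraMap_apply A₀ K₁ (ModelField K₁ N)]
      rfl)
  haveI : CharZero K₁ := charZero_of_injective_algebraMap (algebraMap ℚ K₁).injective
  haveI : CharZero (ModelField K₁ N) :=
    charZero_of_injective_algebraMap (algebraMap K₁ (ModelField K₁ N)).injective
  have hinjE : Function.Injective (algebraMap A₀ (ModelField K₁ N)) := by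
    rw [IsScalarTower.algebraMap_eq A₀ K₁ (ModelField K₁ N)]
    exact (algebraMap K₁ (ModelField K₁ N)).injective.comp hinjK
  have htr : Transcendental A₀ x := hTr K₁ A₀ x hx
  have hgb : GoodBasis A₀ (ModelField K₁ N) ϖ x := hGB K₁ A₀ hℓ ϖ hϖ x hx
  obtain ⟨hbr, hbrinf⟩ := hBR K₁ A₀ hℓ hζM ϖ hϖ x hx
  have hconst : ∀ z : LaurentSeries K₁, IsIntegral A₀ z →
      z ∈ (algebraMap A₀ (LaurentSeries K₁)).range := by
    intro z hz
    have hz1 : IsAlgebraic K₁ z := (hz.tower_top (A := K₁)).isAlgebraic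
    obtain ⟨c, rfl⟩ := hConst K₁ z hz1
    have hc : IsIntegral A₀ c :=
      (isIntegral_algebraMap_iff (algebraMap K₁ (LaurentSeries K₁)).injective).mp hz
    obtain ⟨d, rfl⟩ := IsIntegrallyClosed.isIntegral_iff.mp hc
    exact ⟨d, hmapΩ d⟩
  -- the primitive root of unity in `A₀`
  have hζA : ∃ ζ : A₀, IsPrimitiveRoot ζ r := by
    obtain ⟨ζ, hζ⟩ := hζr
    have hint : IsIntegral A₀ ζ :=
      ⟨X ^ r - 1, monic_X_pow_sub_C 1 hr.ne_zero, by simp [hζ.pow_eq_one]⟩
    obtain ⟨z, hz⟩ := IsIntegrallyClosed.isIntegral_iff.mp hint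
    exact ⟨z, IsPrimitiveRoot.of_map_of_injective (f := algebraMap A₀ K₁) (hz ▸ hζ) hinjK⟩
  -- `u = a / b` lies in the Gauss closure
  have huC : a / b ∈ gaussClosure A₀ (ModelField K₁ N) ϖ x :=
    hQ K₁ A₀ hℓ ϖ hϖ x hx a b ha hb hbu
  -- `u - 1 ∈ ϖ C`
  have hϖK : algebraMap A₀ K₁ ϖ ≠ 0 := fun h => hϖ.ne_zero (hinjK (by rw [h, map_zero]))
  have hpi : PiDvdSet A₀ (ModelField K₁ N) ϖ (gaussClosure A₀ (ModelField K₁ N) ϖ x)
      (a / b - 1) := by
    set k : K₁ := algebraMap A₀ K₁ ϖ with hk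
    let a' : ModelField K₁ N := algebraMap K₁ (ModelField K₁ N) k⁻¹ * (a - b)
    have ha' : ∀ n : ℤ, (a' : LaurentSeries K₁).coeff n ∈ (algebraMap A₀ K₁).range := by
      intro n
      have h1 : (a' : LaurentSeries K₁)
          = HahnSeries.single 0 k⁻¹ * ((a : LaurentSeries K₁) - (b : LaurentSeries K₁)) := by
        show algebraMap K₁ (LaurentSeries K₁) k⁻¹ * _ = _
        rw [algebraMap_laurentSeries_eq_single]
        rfl
      rw [h1, HahnSeries.coeff_single_zero_mul]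
      obtain ⟨c, hc, hcn⟩ := hab n
      rw [← hcn]
      have hcm : c ∈ IsLocalRing.maximalIdeal A₀ := by
        rw [IsLocalRing.mem_maximalIdeal]
        exact hc
      rw [hϖ.maximalIdeal_eq, Ideal.mem_span_singleton] at hcm
      obtain ⟨d, rfl⟩ := hcm
      refine ⟨d, ?_⟩
      rw [map_mul, ← hk]
      field_simp
    refine ⟨a' / b, hQ K₁ A₀ hℓ ϖ hϖ x hx a' b ha' hb hbu, ?_⟩
    have hkE : algebraMap A₀ (ModelField K₁ N) ϖ = algebraMap K₁ (ModelField K₁ N) k :=
      IsScalarTower.algebraMap_apply A₀ K₁ (ModelField K₁ N) ϖ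
    have hkE0 : algebraMap K₁ (ModelField K₁ N) k ≠ 0 := by
      rw [Ne, map_eq_zero]
      exact hϖK
    rw [hkE]
    show a / b - 1 = algebraMap K₁ (ModelField K₁ N) k *
      (algebraMap K₁ (ModelField K₁ N) k⁻¹ * (a - b) / b)
    rw [map_inv₀]
    field_simp
  -- divisibility of the orders at all places
  have hordv : ∀ v : ValuationSubring (ModelField K₁ N), IsPlace A₀ (ModelField K₁ N) v →
      OrdDvd (ModelField K₁ N) v r (a / b) := by
    intro v hv
    obtain ⟨P, rfl⟩ := klAsm_exists_place (K₁ := K₁) v hv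
    refine klAsm_ordDvd_of_place P r (a / b) (div_ne_zero ha0 hb0) ?_
    rw [div_eq_mul_inv, P.ord_mul ha0 (inv_ne_zero hb0), P.ord_inv, ← sub_eq_add_neg]
    exact hord P
  -- the `r`-th root in `Ω`
  have hroot : ∃ w : LaurentSeries K₁, w ^ r = algebraMap (ModelField K₁ N) (LaurentSeries K₁)
      (a / b) := by
    obtain ⟨P, hP⟩ := hCusp K₁
    obtain ⟨γ, hγ⟩ := hγ
    have hdvd : (r : ℤ) ∣ (a : LaurentSeries K₁).order - (b : LaurentSeries K₁).order := by
      have := hord P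
      rwa [hP a ha0, hP b hb0] at this
    obtain ⟨w, hw⟩ := hRoot K₁ r hr.pos
      ((a : LaurentSeries K₁) * (b : LaurentSeries K₁) ^ (r - 1))
      (mul_ne_zero haL (pow_ne_zero _ hbL)) (by
        rw [HahnSeries.order_mul haL (pow_ne_zero _ hbL), HahnSeries.order_pow]
        obtain ⟨t, ht⟩ := hdvd
        refine ⟨t + (b : LaurentSeries K₁).order, ?_⟩
        have hr1 : ((r - 1 : ℕ) : ℤ) = (r : ℤ) - 1 := by
          rw [Nat.cast_sub hr.one_le]
          simp
        rw [nsmul_eq_mul, hr1]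
        linear_combination ht)
      ⟨γ * (b : LaurentSeries K₁).leadingCoeff, by
        rw [HahnSeries.leadingCoeff_mul, klAsm_leadingCoeff_pow, ← hγ, mul_pow,
          ← pow_sub_one_mul hr.ne_zero (b : LaurentSeries K₁).leadingCoeff]
        ring⟩
    refine ⟨w * ((b : LaurentSeries K₁))⁻¹, ?_⟩
    rw [mul_pow, hw]
    show _ = ((a / b : ModelField K₁ N) : LaurentSeries K₁)
    have hcoe : ((a / b : ModelField K₁ N) : LaurentSeries K₁)
        = (a : LaurentSeries K₁) / (b : LaurentSeries K₁) := rfl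
    rw [hcoe, inv_pow, ← pow_sub_one_mul hr.ne_zero (b : LaurentSeries K₁)]
    have hb1 : (b : LaurentSeries K₁) ^ (r - 1) ≠ 0 := pow_ne_zero _ hbL
    field_simp
  -- apply the abstract key lemma
  obtain ⟨w₀, hw₀⟩ := hAbs A₀ (ModelField K₁ N) (LaurentSeries K₁) hinjE ϖ hϖ x htr hgb hbr
    hbrinf hconst r hr hrA hζA (a / b) huC hpi hordv hroot
  refine ⟨w₀, ?_⟩
  rw [hw₀]
  field_simp

end Core

end Fermat.Agent.H22.KL
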