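import Fermat.Agent.H22.ES.KLSetting

/-!
# P-ES / KEY LEMMA, route B : chart basics (statement) (helper22)

`ChartBasicsStatement`: the elementary facts about the two charts `B(x)`, `B(x⁻¹)` needed to apply
the connectedness lemma `Fermat.Agent.H67.KLConn.connected_of_prime`.
-/

set_option autoImplicit false

noncomputable section

namespace Fermat.Agent.H22.KL

open Polynomial
open Fermat.Agent.H67.KLConn (PiDvd)

/-- **CHART BASICS**: for a DVR `A`, a field `E ⊇ A` of characteristic zero, `x ∈ E`
transcendental over `A` with `E` finite over `K₀(x)`: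
* `B(x)` is a finitely generated `A[x]`-module (in the shape used by `H67.KLConn.connected`);
* `B(x)[1/x] = B(x⁻¹)[x]` (both inclusions);
* constants are `ϖ`-saturated in `B(x)`. -/
def ChartBasicsStatement : Prop :=
  ∀ (A : Type) [CommRing A] [IsDomain A] [IsDiscreteValuationRing A]
    (E : Type) [Field E] [Algebra A E] [CharZero E],
    Function.Injective (algebraMap A E) →
    ∀ (ϖ : A), Irreducible ϖ → ∀ (x : E), Transcendental A x →
      (∃ (n : ℕ), Nonempty (Module.Basis (Fin n) (chartField A E x) E)) →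
      (∃ s : Finset E, (∀ b ∈ s, b ∈ chartClosure A E x) ∧
        ∀ r ∈ chartClosure A E x, ∃ p : E → Polynomial A,
          r = ∑ b ∈ s, Polynomial.aeval x (p b) * b) ∧
      (∀ r ∈ chartClosure A E x, ∃ k : ℕ, x⁻¹ ^ k * r ∈ chartClosure A E x⁻¹) ∧
      (∀ r ∈ chartClosure A E x⁻¹, ∃ k : ℕ, x ^ k * r ∈ chartClosure A E x) ∧
      (∀ α : A, PiDvd ϖ (chartClosure A E x) 1 (algebraMap A E α) → ϖ ∣ α)

end Fermat.Agent.H22.KL

namespace Fermat.Agent.H22.KL

/-- **CHART CONSTANTS**: an element integral over `A[x]` and over `A[x⁻¹]` is integral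
over `A`.  (The minimal polynomial over `K₀(x)` has coefficients in `A[x] ∩ A[x⁻¹] = A`.) -/
def ChartConstStatement : Prop :=
  ∀ (A : Type) [CommRing A] [IsDomain A] [IsDiscreteValuationRing A]
    (E : Type) [Field E] [Algebra A E] [CharZero E],
    Function.Injective (algebraMap A E) →
    ∀ (x : E), Transcendental A x →
      ∀ z : E, z ∈ chartClosure A E x → z ∈ chartClosure A E x⁻¹ → IsIntegral A z

end Fermat.Agent.H22.KL
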