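import Fermat.Agent.H22.ES.KLTop
import Fermat.Agent.H27.KLGB.Model
import Fermat.Agent.H2.KLBRModel
import Fermat.Agent.H58.KL.ModelTr

/-!
# P-ES / KEY LEMMA, route B : the model inputs for `x = j`, `ℓ ≥ 5` (helper22)

`modelInputs_j` : `ModelInputs N ℓ` for `ℓ ≥ 5`, `ℓ ∤ N` from the `q`-expansion principle
`ModelQExpStatement N ℓ jq` (row 497); good basis (helper27), branch data (helper2) and
transcendence (helper58) are landed theorems.
-/

set_option autoImplicit false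

noncomputable section

namespace Fermat.Agent.H22.KL

open ModularCurve AlgebraicCurve

theorem jq_mem_full' (N : ℕ) [NeZero N] : jq ∈ modularFunctionFieldFull N :=
  modularFunctionField_le_full N (jq_mem N)

/-- The model inputs at `ℓ ≥ 5`, coordinate `x = j`. -/
theorem modelInputs_j (N : ℕ) [NeZero N] (ℓ : ℕ) (hℓ : ℓ.Prime) (h5 : 5 ≤ ℓ) (hN : ¬ ℓ ∣ N)
    (hQ : ModelQExpStatement N ℓ jq) : ModelInputs N ℓ :=
  ⟨jq, 3 * N, jq_mem_full' N, Nat.mul_pos (by norm_num) (Nat.pos_of_ne_zero (NeZero.ne N)),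
    Fermat.Agent.H58.modelTranscendental_jq N,
    Fermat.Agent.H27.KLGB.modelGoodBasis_j N ℓ hℓ hN,
    Fermat.Agent.H2.klbr_model_j N ℓ hℓ h5 hN (3 * N)
      (Nat.mul_ne_zero (by norm_num) (NeZero.ne N)) (Dvd.intro _ rfl) (Dvd.intro_left _ rfl),
    hQ⟩

end Fermat.Agent.H22.KL
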