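import Fermat.Agent.H22.ES.KLSetting

/-!
# P-ES / KEY LEMMA, route B : congruence invariance of the branch data (helper22)

`OutsideMax`, `InDisc`, `UnramifiedNear` and `BranchHypAt` only depend on the ideal `(ϖ, g)`,
i.e. they are invariant under `g ↦ g + ϖ p`.
-/

set_option autoImplicit false

noncomputable section

namespace Fermat.Agent.H22.KL

open Polynomial

variable {A : Type} [CommRing A] {E : Type} [Field E] [Algebra A E]

/-- Membership in `(ϖ, g)` is unchanged when `g` is replaced by `g + ϖ p`. -/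
theorem memMax_of_congr {ϖ : A} {g g' p₀ s : A[X]} (hg : g' = g + C ϖ * p₀)
    (h : ∃ p q : A[X], s = C ϖ * p + g * q) : ∃ p q : A[X], s = C ϖ * p + g' * q := by
  obtain ⟨p, q, rfl⟩ := h
  exact ⟨p - p₀ * q, q, by rw [hg]; ring⟩

theorem memMax_congr {ϖ : A} {g g' p₀ s : A[X]} (hg : g' = g + C ϖ * p₀) :
    (∃ p q : A[X], s = C ϖ * p + g * q) ↔ ∃ p q : A[X], s = C ϖ * p + g' * q :=
  ⟨memMax_of_congr hg, memMax_of_congr (p₀ := -p₀) (by rw [hg]; ring)⟩

theorem outsideMax_congr {ϖ : A} {g g' p₀ s : A[X]} (hg : g' = g + C ϖ * p₀) :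
    OutsideMax A ϖ g s ↔ OutsideMax A ϖ g' s :=
  not_congr (memMax_congr hg)

theorem inDisc_congr {ϖ : A} {x : E} {g g' p₀ : A[X]} (hg : g' = g + C ϖ * p₀)
    (v : ValuationSubring E) : InDisc A E ϖ x g v ↔ InDisc A E ϖ x g' v :=
  forall_congr' fun _ => imp_congr_right fun _ => memMax_congr hg

theorem unramifiedNear_congr {ϖ : A} {x : E} {g g' p₀ : A[X]} (hg : g' = g + C ϖ * p₀) :
    UnramifiedNear A E ϖ x g ↔ UnramifiedNear A E ϖ x g' :=
  forall_congr' fun v => imp_congr_right fun _ => imp_congr_left (inDisc_congr hg v)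

theorem branchHypAt_congr {ϖ : A} {x : E} {g g' p₀ : A[X]} (hg : g' = g + C ϖ * p₀) :
    BranchHypAt A E ϖ x g ↔ BranchHypAt A E ϖ x g' := by
  have key : ∀ {g g' p₀ : A[X]}, g' = g + C ϖ * p₀ →
      BranchHypAt A E ϖ x g → BranchHypAt A E ϖ x g' := by
    intro g g' p₀ hg h
    rcases h with h | ⟨c, e, ⟨p, hp⟩, h⟩
    · exact Or.inl ((unramifiedNear_congr hg).1 h)
    · exact Or.inr ⟨c, e, ⟨p + p₀, by rw [hg, hp]; ring⟩, h⟩
  exact ⟨key hg, key (p₀ := -p₀) (by rw [hg]; ring)⟩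

/-- The tame alternative at `X - C c` itself. -/
theorem branchHypAt_of_tame {ϖ : A} {x : E} {c : A} {e : ℕ} (he : 0 < e)
    (hu : IsUnit ((e : ℕ) : A)) (hζ : ∃ ζ : A, IsPrimitiveRoot ζ e)
    (ht : TameNear A E ϖ x c e)
    (ho : ∀ d : ℕ, d.Prime → d ∣ e →
      ∃ v : ValuationSubring E, IsPlace A E v ∧ ¬ OrdDvd E v d (x - algebraMap A E c)) :
    BranchHypAt A E ϖ x (X - C c) :=
  Or.inr ⟨c, e, ⟨0, by simp⟩, he, hu, hζ, ht, ho⟩

/-- A place in the disc of `(ϖ, g)` at which `x - c` vanishes forces `g ≡ X - c` in the sense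
that `X - C c ∈ (ϖ, g)`. -/
theorem sub_C_mem_of_inDisc {ϖ : A} {x : E} {g : A[X]} {v : ValuationSubring E} {c : A}
    (hv : InDisc A E ϖ x g v) (hc : x - algebraMap A E c ∈ v.nonunits) :
    ∃ p q : A[X], X - C c = C ϖ * p + g * q :=
  hv (X - C c) (by simpa using hc)

end Fermat.Agent.H22.KL
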