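import Fermat.Agent.H22.ES.KLFinal5
import Fermat.Agent.H17.ESD.T2Model
import Fermat.Agent.H1.ESD.T3Rat
import Fermat.Agent.H27.KLGB.ModelTower
import Fermat.Agent.H2.KLBRModelFinal
import Fermat.Agent.H87.KL.GaussCoordInst

/-!
# P-ES / KEY LEMMA, route B : the key lemma at ALL good primes (helper22)

* `modelInputs_three` : `ModelInputs N 3` for `2 ∣ N`, `3 ∤ N` (coordinate `t₂`, `M = 2 N`).
* `modelInputs_two` : `ModelInputs N 2` for `3 ∣ N`, `2 ∤ N` (coordinate `t₃`, `M = 3 N`).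
* **`keyLemmaAll : KeyLemmaAllStatement`** (UNCONDITIONAL).
-/

set_option autoImplicit false

noncomputable section

namespace Fermat.Agent.H22.KL

open ModularCurve AlgebraicCurve Fermat.Agent.H22.ES

/-- The model inputs at `ℓ = 3` (`2 ∣ N`, `3 ∤ N`), coordinate `t₂`. -/
theorem modelInputs_three (N : ℕ) [NeZero N] (h2 : 2 ∣ N) (h3 : ¬ 3 ∣ N) : ModelInputs N 3 :=
  ⟨Fermat.Agent.H17.ESD.t2S ℚ, 2 * N, Fermat.Agent.H17.ESD.t2S_rat_mem N h2,
    Nat.mul_pos (by norm_num) (Nat.pos_of_ne_zero (NeZero.ne N)),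
    Fermat.Agent.H17.ESD.modelTranscendental_t2 N,
    Fermat.Agent.H27.KLGB.modelGoodBasis_t2 N 3 Nat.prime_three h3 (by norm_num),
    Fermat.Agent.H2.klbr_model_three N h2 h3,
    Fermat.Agent.H87.KL.modelQExp_t2 N 3 Nat.prime_three
      (Fermat.Agent.H48.QExp.modelQExp_j N 3 Nat.prime_three h3)⟩

/-- The model inputs at `ℓ = 2` (`3 ∣ N`, `2 ∤ N`), coordinate `t₃`. -/
theorem modelInputs_two (N : ℕ) [NeZero N] (h3 : 3 ∣ N) (h2 : ¬ 2 ∣ N) : ModelInputs N 2 :=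
  ⟨Fermat.Agent.H1.ESD.t3 ℚ, 3 * N, Fermat.Agent.H1.ESD.t3_rat_mem_full N h3,
    Nat.mul_pos (by norm_num) (Nat.pos_of_ne_zero (NeZero.ne N)),
    Fermat.Agent.H58.modelTranscendental_of_order_ne_zero N (Fermat.Agent.H1.ESD.t3 ℚ)
      Fermat.Agent.H1.ESD.order_t3_rat_ne_zero,
    Fermat.Agent.H27.KLGB.modelGoodBasis_t3 N 2 Nat.prime_two h2 (by norm_num),
    Fermat.Agent.H2.klbr_model_two N h3 h2,
    Fermat.Agent.H87.KL.modelQExp_t3 N 2 Nat.prime_two
      (Fermat.Agent.H48.QExp.modelQExp_j N 2 Nat.prime_two h2)⟩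

/-- **THE KEY LEMMA at all good primes** (unconditional): for every `N ≥ 1` and every prime
`ℓ ∤ N`, a valuation subring of `ℚ̄(X₀(N))` lying over `ℓ` and containing `j` has residue field
`𝔽̄_ℓ(X₀(N))` of the expected shape. -/
theorem keyLemmaAll : KeyLemmaAllStatement :=
  keyLemmaAll_of_small (fun N _ h2 h3 => modelInputs_three N h2 h3)
    (fun N _ h3 h2 => modelInputs_two N h3 h2)

end Fermat.Agent.H22.KL
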