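import Fermat.Agent.H22.ES.KLSetting2

/-!
# P-ES / KEY LEMMA, route B : abstract assembly (helper22)

`noKummer_of` : `NoKummerStatement` from the block statements of `KLSetting` / `KLSetting2`
and the connectedness lemma `Fermat.Agent.H67.KLConn.connected_of_prime`.
-/

set_option autoImplicit false

noncomputable section

namespace Fermat.Agent.H22.KL

open Polynomial
open Fermat.Agent.H67.KLConn (PiDvd)

section Helpers

variable {A : Type} [CommRing A] {E : Type} [Field E] [Algebra A E]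

lemma piDvdSet_of_piDvd {ϖ : A} {R : Subalgebra A E} {S : Set E} (h : ∀ y ∈ R, y ∈ S) {z : E}
    (hz : PiDvd ϖ R 1 z) : PiDvdSet A E ϖ S z := by
  obtain ⟨r, hr, rfl⟩ := hz
  exact ⟨r, h r hr, by rw [pow_one, Algebra.smul_def]⟩

/-- A set closed under the ring operations (as delivered by `GaussClosureStatement`). -/
structure IsRingLike (S : Set E) : Prop where
  add : ∀ y ∈ S, ∀ z ∈ S, y + z ∈ S
  mul : ∀ y ∈ S, ∀ z ∈ S, y * z ∈ S
  neg : ∀ y ∈ S, -y ∈ S

lemma IsRingLike.sub {S : Set E} (hS : IsRingLike S) {y z : E} (hy : y ∈ S) (hz : z ∈ S) :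
    y - z ∈ S := by
  rw [sub_eq_add_neg]; exact hS.add y hy _ (hS.neg z hz)

lemma PiDvdSet.add {ϖ : A} {S : Set E} (hS : IsRingLike S) {y z : E}
    (hy : PiDvdSet A E ϖ S y) (hz : PiDvdSet A E ϖ S z) : PiDvdSet A E ϖ S (y + z) := by
  obtain ⟨c, hc, rfl⟩ := hy
  obtain ⟨d, hd, rfl⟩ := hz
  exact ⟨c + d, hS.add c hc d hd, by ring⟩

lemma PiDvdSet.neg {ϖ : A} {S : Set E} (hS : IsRingLike S) {y : E}
    (hy : PiDvdSet A E ϖ S y) : PiDvdSet A E ϖ S (-y) := by
  obtain ⟨c, hc, rfl⟩ := hy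
  exact ⟨-c, hS.neg c hc, by ring⟩

lemma PiDvdSet.sub {ϖ : A} {S : Set E} (hS : IsRingLike S) {y z : E}
    (hy : PiDvdSet A E ϖ S y) (hz : PiDvdSet A E ϖ S z) : PiDvdSet A E ϖ S (y - z) := by
  rw [sub_eq_add_neg]; exact hy.add hS (hz.neg hS)

lemma PiDvdSet.mul_right {ϖ : A} {S : Set E} (hS : IsRingLike S) {y z : E}
    (hy : PiDvdSet A E ϖ S y) (hz : z ∈ S) : PiDvdSet A E ϖ S (y * z) := by
  obtain ⟨c, hc, rfl⟩ := hy
  exact ⟨c * z, hS.mul c hc z hz, by ring⟩

lemma PiDvdSet.mul_left {ϖ : A} {S : Set E} (hS : IsRingLike S) {y z : E}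
    (hz : z ∈ S) (hy : PiDvdSet A E ϖ S y) : PiDvdSet A E ϖ S (z * y) := by
  rw [mul_comm]; exact hy.mul_right hS hz

lemma mem_chartClosure_of_mem_chartRing {x y : E} (hy : y ∈ chartRing A E x) :
    y ∈ chartClosure A E x := by
  show IsIntegral (chartRing A E x) y
  exact (isIntegral_algebraMap (R := chartRing A E x) (A := E) (x := ⟨y, hy⟩))

end Helpers

/-- **Assembly**: no unramified Kummer extension with trivial reduction. -/
theorem noKummer_of (hB : ChartBasicsStatement) (hT : LemmaTStatement)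
    (hG : GaussClosureStatement) (hN : NormalityStatement) (hI : NormalityInfStatement)
    (hK1 : KummerGoodBasisStatement) (hK2 : KummerIdempotentStatement)
    (hK3 : KummerBranchStatement) : NoKummerStatement := by
  intro A _ _ _ E₀ E _ _ _ _ _ _ _ hinj ϖ hϖ x hx hGB hbr hbrinf r hr hru hζ u w hw hadj hfin
    huC hu1 hord hconst
  -- basic facts about `E`
  have : CharZero E := charZero_of_injective_algebraMap (algebraMap E₀ E).injective
  have hinjE : Function.Injective (algebraMap A E) := by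
    rw [IsScalarTower.algebraMap_eq A E₀ E]
    exact (algebraMap E₀ E).injective.comp hinj
  set X : E := algebraMap E₀ E x with hXdef
  have hX : Transcendental A X :=
    (transcendental_algebraMap_iff (algebraMap E₀ E).injective).mpr hx
  have hX0 : X ≠ 0 := by
    intro h0
    apply hX
    rw [h0]
    exact isAlgebraic_zero
  have hXinv : Transcendental A X⁻¹ := by
    intro h
    exact hX (IsAlgebraic.inv_iff.mp h)
  have hu0 : u ≠ 0 := by
    intro h0
    have hw0 : w = 0 := by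
      have : w ^ r = 0 := by rw [hw, h0, map_zero]
      exact pow_eq_zero_iff (hr.ne_zero) |>.mp this
    have htop : (⊤ : Subalgebra E₀ E) = ⊥ := by
      rw [← hadj, hw0]
      refine le_antisymm (Algebra.adjoin_le ?_) bot_le
      intro y hy
      rw [Set.mem_singleton_iff] at hy
      rw [hy]
      exact (⊥ : Subalgebra E₀ E).zero_mem
    have h1 : Module.finrank E₀ E = 1 := by
      have := Subalgebra.finrank_bot (F := E₀) (E := E)
      rw [← htop] at this
      rw [← this]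
      exact (Subalgebra.topEquiv (R := E₀) (A := E)).toLinearEquiv.finrank_eq.symm
    rw [hfin] at h1
    exact hr.one_lt.ne' h1
  -- the inputs for `E`
  have hGBE : GoodBasis A E ϖ X :=
    hK1 A E₀ E hinj ϖ hϖ x hx r hr hru u w hw hadj hfin huC hu1 hGB
  have hbrE : ∀ g : A[X], g.Monic → Irreducible (g.map (IsLocalRing.residue A)) →
      BranchHypAt A E ϖ X g := fun g hg hirr =>
    hK3 A E₀ E hinj ϖ hϖ x hx r hr u w hw hadj hfin hu0 hord x g (Or.inl rfl) (hbr g hg hirr)
  have hbrinfE : BranchHypAt A E ϖ X⁻¹ (Polynomial.X : A[X]) := by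
    have := hK3 A E₀ E hinj ϖ hϖ x hx r hr u w hw hadj hfin hu0 hord x⁻¹ Polynomial.X
      (Or.inr rfl) hbrinf
    rwa [map_inv₀] at this
  obtain ⟨e, heC, hee, he0, he1⟩ :=
    hK2 A E₀ E hinj ϖ hϖ x hx r hr hru hζ u w hw hadj hfin huC hu1
  obtain ⟨a, ha, hae⟩ := hN A E hinjE ϖ hϖ X hX hGBE hbrE e heC hee
  obtain ⟨b, hb, hbe⟩ := hI A E hinjE ϖ hϖ X hX hGBE hbrinfE e heC hee ⟨a, ha, hae⟩
  obtain ⟨hBC, hCring', hCinv⟩ := hG A E hinjE ϖ hϖ X hX
  obtain ⟨hBCi, -, -⟩ := hG A E hinjE ϖ hϖ X⁻¹ hXinv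
  rw [hCinv] at hBCi
  have hCring : IsRingLike (gaussClosure A E ϖ X) :=
    ⟨fun y hy z hz => (hCring' y hy z hz).1, fun y hy z hz => (hCring' y hy z hz).2.1,
      fun y hy => (hCring' y hy y hy).2.2⟩
  obtain ⟨n, bas, -, -⟩ := hGBE
  obtain ⟨hgen, hmidf, hmidi, hsat⟩ := hB A E hinjE ϖ hϖ X hX ⟨n, ⟨bas⟩⟩
  -- membership in `C`
  have haC : a ∈ gaussClosure A E ϖ X := hBC a ha
  have hbC : b ∈ gaussClosure A E ϖ X := hBCi b hb
  have h1C : (1 : E) ∈ gaussClosure A E ϖ X := hBC 1 (chartClosure A E X).one_mem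
  -- `a² - a ∈ ϖ C`, `b² - b ∈ ϖ C`
  have key : ∀ c ∈ gaussClosure A E ϖ X, PiDvdSet A E ϖ (gaussClosure A E ϖ X) (e - c) →
      PiDvdSet A E ϖ (gaussClosure A E ϖ X) (c ^ 2 - c) := by
    intro c hc hec
    have e1 : c ^ 2 - c = (e * e - e) - (e - c) * (e + c - 1) := by ring
    rw [e1]
    refine hee.sub hCring (hec.mul_right hCring ?_)
    exact hCring.sub (hCring.add e heC c hc) h1C
  have ha2 : PiDvd ϖ (chartClosure A E X) 1 (a ^ 2 - a) :=
    hT A E hinjE ϖ hϖ X hX _ ((chartClosure A E X).sub_mem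
      ((chartClosure A E X).pow_mem ha 2) ha) (key a haC hae)
  have hb2 : PiDvd ϖ (chartClosure A E X⁻¹) 1 (b ^ 2 - b) := by
    refine hT A E hinjE ϖ hϖ X⁻¹ hXinv _ ((chartClosure A E X⁻¹).sub_mem
      ((chartClosure A E X⁻¹).pow_mem hb 2) hb) ?_
    rw [hCinv]
    exact key b hbC hbe
  -- the overlap
  have hXf : X ∈ chartClosure A E X := mem_chartClosure_of_mem_chartRing
    (Algebra.subset_adjoin (Set.mem_singleton X))
  have hXi : X⁻¹ ∈ chartClosure A E X⁻¹ := mem_chartClosure_of_mem_chartRing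
    (Algebra.subset_adjoin (Set.mem_singleton X⁻¹))
  have hab : PiDvd ϖ (chartClosure A E X ⊔ chartClosure A E X⁻¹) 1 (a - b) := by
    have habC : PiDvdSet A E ϖ (gaussClosure A E ϖ X) (a - b) := by
      have e1 : a - b = (e - b) - (e - a) := by ring
      rw [e1]
      exact hbe.sub hCring hae
    have hmem : a - b ∈ chartClosure A E X ⊔ chartClosure A E X⁻¹ :=
      Subalgebra.sub_mem _ ((le_sup_left : chartClosure A E X ≤ _) ha)
        ((le_sup_right : chartClosure A E X⁻¹ ≤ _) hb)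
    obtain ⟨k, hk⟩ := Fermat.Agent.H67.KLConn.exists_pow_mul_mem X (chartClosure A E X)
      (chartClosure A E X⁻¹) hXf hmidi hmem
    have hXkC : X ^ k ∈ gaussClosure A E ϖ X := hBC _ ((chartClosure A E X).pow_mem hXf k)
    obtain ⟨c, hc, hcd⟩ := hT A E hinjE ϖ hϖ X hX _ hk (habC.mul_left hCring hXkC)
    refine ⟨X⁻¹ ^ k * c, ?_, ?_⟩
    · exact Subalgebra.mul_mem _
        (Subalgebra.pow_mem _ ((le_sup_right : chartClosure A E X⁻¹ ≤ _) hXi) k)
        ((le_sup_left : chartClosure A E X ≤ _) hc)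
    · have hXk0 : X ^ k ≠ 0 := pow_ne_zero k hX0
      have : a - b = X⁻¹ ^ k * (X ^ k * (a - b)) := by
        rw [inv_pow, ← mul_assoc, inv_mul_cancel₀ hXk0, one_mul]
      rw [this, hcd, mul_smul_comm]
  -- connectedness
  have hprime : Prime ϖ := hϖ.prime
  have hcap : ∀ z, z ∈ chartClosure A E X → z ∈ chartClosure A E X⁻¹ →
      ∃ α : A, algebraMap A E α = z := fun z hz hz' => hconst z hz hz'
  rcases Fermat.Agent.H67.KLConn.connected_of_prime hprime (mul_inv_cancel₀ hX0)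
    (chartClosure A E X) (chartClosure A E X⁻¹) hXf hXi hgen hmidf hmidi hcap hsat ha hb
    ha2 hb2 hab with ⟨h1, -⟩ | ⟨h1, -⟩
  · -- `a ∈ ϖ B`, hence `e ∈ ϖ C`
    apply he0
    have e1 : e = (e - a) + a := by ring
    rw [e1]
    exact hae.add hCring (piDvdSet_of_piDvd hBC h1)
  · -- `a - 1 ∈ ϖ B`, hence `1 - e ∈ ϖ C`
    apply he1
    have e1 : 1 - e = -((e - a) + (a - 1)) := by ring
    rw [e1]
    exact (hae.add hCring (piDvdSet_of_piDvd hBC h1)).neg hCring


/-- **Abstract key lemma** from `NoKummerStatement`. -/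
theorem abstractKeyLemma_of (hNK : NoKummerStatement) (hC : ChartConstStatement) :
    AbstractKeyLemmaStatement := by
  intro A _ _ _ E₀ Ω _ _ _ _ _ _ _ hinj ϖ hϖ x hx hGB hbr hbrinf hΩ r hr hru hζ u huC hu1
    hord hw
  obtain ⟨w, hw⟩ := hw
  by_contra hno
  simp only [not_exists] at hno
  have hirr : Irreducible (X ^ r - C u : E₀[X]) := X_pow_sub_C_irreducible_of_prime hr hno
  have hmonic : (X ^ r - C u : E₀[X]).Monic := monic_X_pow_sub_C u hr.ne_zero
  have hroot : aeval w (X ^ r - C u : E₀[X]) = 0 := by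
    simp [hw]
  have hint : IsIntegral E₀ w := ⟨_, hmonic, by simpa [aeval_def] using hroot⟩
  have hmin : minpoly E₀ w = X ^ r - C u :=
    (minpoly.eq_of_irreducible_of_monic hirr hroot hmonic).symm
  let E := IntermediateField.adjoin E₀ ({w} : Set Ω)
  have hfin : Module.finrank E₀ E = r := by
    rw [IntermediateField.adjoin.finrank hint, hmin, natDegree_X_pow_sub_C]
  let w' : E := IntermediateField.AdjoinSimple.gen E₀ w
  have hw' : w' ^ r = algebraMap E₀ E u := by
    apply Subtype.ext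
    simp [w', hw]
  have hadj : Algebra.adjoin E₀ ({w'} : Set E) = ⊤ := by
    have := (IntermediateField.adjoin.powerBasis hint).adjoin_gen_eq_top
    simpa using this
  have hinjE : Function.Injective (algebraMap A E) := by
    rw [IsScalarTower.algebraMap_eq A E₀ E]
    exact (algebraMap E₀ E).injective.comp hinj
  haveI : CharZero E := charZero_of_injective_algebraMap (algebraMap E₀ E).injective
  refine hNK A E₀ E hinj ϖ hϖ x hx hGB hbr hbrinf r hr hru hζ u w' hw' hadj hfin huC hu1 hord ?_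
  intro z hz hz'
  have hX : Transcendental A (algebraMap E₀ E x) :=
    (transcendental_algebraMap_iff (algebraMap E₀ E).injective).mpr hx
  have hzint : IsIntegral A z := hC A E hinjE _ hX z hz hz'
  have hzΩ : IsIntegral A (z : Ω) := by
    obtain ⟨p, hp, hpz⟩ := hzint
    refine ⟨p, hp, ?_⟩
    have h1 := Polynomial.hom_eval₂ p (algebraMap A E) (algebraMap E Ω) z
    rw [hpz, map_zero] at h1
    have h2 : (algebraMap E Ω).comp (algebraMap A E) = algebraMap A Ω :=
      RingHom.ext fun _ => rfl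
    rw [h2] at h1
    exact h1.symm
  obtain ⟨α, hα⟩ := hΩ _ hzΩ
  refine ⟨α, ?_⟩
  apply Subtype.ext
  rw [← hα]
  rfl

end Fermat.Agent.H22.KL
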