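import Fermat.Agent.H22.ES.KLFinalJ
import Fermat.Agent.H70.KL.NormalityAt
import Fermat.Agent.H93.KL.AsmFinal
import Fermat.Agent.H48.KL.QExpFinal

/-!
# P-ES / KEY LEMMA, route B : the key lemma at `ℓ ≥ 5` (helper22)

* `abstractKeyLemma : AbstractKeyLemmaStatement` (unconditional).
* `keyLemma_of_five_le : KeyLemmaStatement N ℓ` for every prime `ℓ ≥ 5`, `ℓ ∤ N` (unconditional).
* `keyLemmaAll_of_small` : `KeyLemmaAllStatement` from the model inputs at the two small primes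
  (`ℓ = 3` with `2 ∣ N`, `ℓ = 2` with `3 ∣ N`).
-/

set_option autoImplicit false

noncomputable section

namespace Fermat.Agent.H22.KL

open ModularCurve AlgebraicCurve Fermat.Agent.H22.ES

/-- **The abstract key lemma** (unconditional). -/
theorem abstractKeyLemma : AbstractKeyLemmaStatement :=
  abstractKeyLemma_of_normalityAt Fermat.Agent.H70.KL.normalityAt

/-- **KL-ASM-BC** (helper93). -/
theorem keyLemmaPrimeOfModel : KeyLemmaPrimeOfModelStatement := by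
  intro N _ ℓ hℓ hAbs hM
  obtain ⟨x₀, M, hx₀, hM0, hTr, hGB, hBR, hQ⟩ := hM
  exact Fermat.Agent.H93.KL.keyLemmaPrime_of_model N ℓ hℓ x₀ hx₀ M hM0 hAbs hTr hGB hBR hQ

/-- The model inputs at `ℓ ≥ 5` (unconditional). -/
theorem modelInputs_five_le (N : ℕ) [NeZero N] (ℓ : ℕ) (hℓ : ℓ.Prime) (h5 : 5 ≤ ℓ)
    (hN : ¬ ℓ ∣ N) : ModelInputs N ℓ :=
  modelInputs_j N ℓ hℓ h5 hN (Fermat.Agent.H48.QExp.modelQExp_j N ℓ hℓ hN)

/-- **The key lemma at `ℓ ≥ 5`** (unconditional). -/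
theorem keyLemma_of_five_le (N : ℕ) [NeZero N] (ℓ : ℕ) (hℓ : ℓ.Prime) (h5 : 5 ≤ ℓ)
    (hN : ¬ ℓ ∣ N) : KeyLemmaStatement N ℓ :=
  keyLemma_of_modelInputs Fermat.Agent.H70.KL.normalityAt keyLemmaPrimeOfModel N ℓ hℓ
    (modelInputs_five_le N ℓ hℓ h5 hN)

/-- The key lemma at all good primes, from the model inputs at the two small primes. -/
theorem keyLemmaAll_of_small
    (h3 : ∀ (N : ℕ) [NeZero N], 2 ∣ N → ¬ 3 ∣ N → ModelInputs N 3)
    (h2 : ∀ (N : ℕ) [NeZero N], 3 ∣ N → ¬ 2 ∣ N → ModelInputs N 2) :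
    KeyLemmaAllStatement :=
  keyLemmaAll_of Fermat.Agent.H70.KL.normalityAt keyLemmaPrimeOfModel
    (fun N _ ℓ hℓ h5 hN => modelInputs_five_le N ℓ hℓ h5 hN) h3 h2

end Fermat.Agent.H22.KL
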