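import Fermat.Agent.H22.ES.KLAbs
import Fermat.Agent.H22.ES.KLModel
import Fermat.Agent.H34.KL.LemmaT
import Fermat.Agent.H89.KLGauss
import Fermat.Agent.H33.KL.Glue
import Fermat.Agent.H54.KL.KummerGB
import Fermat.Agent.H87.KL.KumIdem
import Fermat.Agent.H88.KL.KummerBranch
import Fermat.Agent.H85.KLChart
import Fermat.Agent.H95.KL.ChartConst
import Fermat.Agent.H88.ES.KLInd
import Fermat.Agent.H44.KL.NormTrickDeg
import Fermat.Agent.H66.ESD.GaussNorm

/-!
# P-ES / KEY LEMMA, route B : the top-level chain (helper22)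

* `abstractKeyLemma_of_normalityAt` : the abstract key lemma from the tame normality step
  (`NormalityAtStatement`, row KL-N-TAME); all other abstract inputs are landed theorems.
* `ModelInputs N ℓ` : the inputs specific to the modular function field at a tame pair.
* `keyLemmaAll_of` : `KeyLemmaAllStatement` from the abstract key lemma, the instantiation
  theorem (`KeyLemmaPrimeOfModelStatement`, row KL-ASM-BC) and the model inputs at the tame
  pairs (`ℓ ≥ 5`; `ℓ = 3`, `2 ∣ N`; `ℓ = 2`, `3 ∣ N`).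
-/

set_option autoImplicit false

noncomputable section

namespace Fermat.Agent.H22.KL

open ModularCurve AlgebraicCurve Fermat.Agent.H22.ES

/-- `NoKummerStatement` from the tame normality step. -/
theorem noKummer_of_normalityAt (hNA : NormalityAtStatement) : NoKummerStatement :=
  noKummer_of Fermat.Agent.H85.chartBasics Fermat.Agent.H34.lemmaT
    Fermat.Agent.H89.gaussClosureStatement
    (Fermat.Agent.H33.KLGlue.normality_of_normalityAt hNA Fermat.Agent.H89.gaussClosureStatement)
    (Fermat.Agent.H33.KLGlue.normalityInf_of_normalityAt hNA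
      Fermat.Agent.H89.gaussClosureStatement Fermat.Agent.H89.goodBasisInvStatement)
    Fermat.Agent.H54.kummerGoodBasis Fermat.Agent.H87.KL.kummerIdempotent
    Fermat.Agent.H88.KLB.kummerBranchStatement

/-- **The abstract key lemma** from the tame normality step. -/
theorem abstractKeyLemma_of_normalityAt (hNA : NormalityAtStatement) :
    AbstractKeyLemmaStatement :=
  abstractKeyLemma_of (noKummer_of_normalityAt hNA) Fermat.Agent.H95.KL.chartConstStatement

/-- The inputs specific to the modular function field of level `N` at the prime `ℓ`: a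
coordinate `x₀` with good basis, branch data and the `q`-expansion principle. -/
def ModelInputs (N ℓ : ℕ) : Prop :=
  ∃ (x₀ : LaurentSeries ℚ) (M : ℕ), x₀ ∈ modularFunctionFieldFull N ∧ 0 < M ∧
    ModelTranscendentalStatement N x₀ ∧ ModelGoodBasisStatement N ℓ x₀ ∧
    ModelBranchStatement N ℓ x₀ M ∧ ModelQExpStatement N ℓ x₀

/-- **KL-ASM-BC**: the instantiation of the abstract key lemma (row 551). -/
def KeyLemmaPrimeOfModelStatement : Prop :=
  ∀ (N : ℕ) [NeZero N] (ℓ : ℕ), ℓ.Prime → AbstractKeyLemmaStatement → ModelInputs N ℓ →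
    Fermat.Agent.H88.KLInd.KeyLemmaPrimeStatement N ℓ

/-- The key lemma at one tame pair. -/
theorem keyLemma_of_modelInputs (hNA : NormalityAtStatement)
    (hBC : KeyLemmaPrimeOfModelStatement) (N : ℕ) [NeZero N] (ℓ : ℕ) (hℓ : ℓ.Prime)
    (hM : ModelInputs N ℓ) : KeyLemmaStatement N ℓ :=
  Fermat.Agent.H88.KLInd.keyLemma_of_prime N ℓ hℓ (Fermat.Agent.H66.gaussNormalForm N)
    (hBC N ℓ hℓ (abstractKeyLemma_of_normalityAt hNA) hM)

/-- **KL-ASM, top level**: the key lemma at all good primes, from the tame normality step, the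
instantiation theorem and the model inputs at the tame pairs. -/
theorem keyLemmaAll_of (hNA : NormalityAtStatement) (hBC : KeyLemmaPrimeOfModelStatement)
    (h5 : ∀ (N : ℕ) [NeZero N] (ℓ : ℕ), ℓ.Prime → 5 ≤ ℓ → ¬ ℓ ∣ N → ModelInputs N ℓ)
    (h3 : ∀ (N : ℕ) [NeZero N], 2 ∣ N → ¬ 3 ∣ N → ModelInputs N 3)
    (h2 : ∀ (N : ℕ) [NeZero N], 3 ∣ N → ¬ 2 ∣ N → ModelInputs N 2) :
    KeyLemmaAllStatement := by
  intro N _ ℓ hℓ hℓN
  have hN0 : N ≠ 0 := NeZero.ne N
  by_cases h5' : 5 ≤ ℓ
  · exact keyLemma_of_modelInputs hNA hBC N ℓ hℓ (h5 N ℓ hℓ h5' hℓN)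
  · have hℓ2 : 2 ≤ ℓ := hℓ.two_le
    have h4 : ℓ ≠ 4 := by
      rintro rfl
      exact absurd hℓ (by decide)
    have hcases : ℓ = 2 ∨ ℓ = 3 := by omega
    rcases hcases with rfl | rfl
    · -- `ℓ = 2`: pass to level `lcm N 3`
      haveI : NeZero (Nat.lcm N 3) := ⟨Nat.lcm_ne_zero hN0 (by norm_num)⟩
      refine Fermat.Agent.H44.kl_two_of_lcm N ?_
      refine keyLemma_of_modelInputs hNA hBC _ 2 hℓ
        (h2 _ (Nat.dvd_lcm_right N 3) ?_)
      intro h
      have : 2 ∣ N * 3 := h.trans (Nat.lcm_dvd (Dvd.intro _ rfl) (Dvd.intro_left _ rfl))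
      rcases (Nat.Prime.dvd_mul Nat.prime_two).mp this with h' | h'
      · exact hℓN h'
      · exact absurd h' (by decide)
    · -- `ℓ = 3`: pass to level `lcm N 2`
      haveI : NeZero (Nat.lcm N 2) := ⟨Nat.lcm_ne_zero hN0 (by norm_num)⟩
      refine Fermat.Agent.H44.kl_three_of_lcm N ?_
      refine keyLemma_of_modelInputs hNA hBC _ 3 hℓ
        (h3 _ (Nat.dvd_lcm_right N 2) ?_)
      intro h
      have : 3 ∣ N * 2 := h.trans (Nat.lcm_dvd (Dvd.intro _ rfl) (Dvd.intro_left _ rfl))
      rcases (Nat.Prime.dvd_mul Nat.prime_three).mp this with h' | h'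
      · exact hℓN h'
      · exact absurd h' (by decide)

end Fermat.Agent.H22.KL
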